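import Fermat.Agent.S17.H980.PosLinEmb
import Mathlib.GroupTheory.CosetCover

/-!
# S17 / tower H, geometric leaf G-MOV2 (helper980)

`E : EmbData ℚ̄ F` with Galois-fixed basis, `∞` invariant.

* `exists_rat_coeff` : a Galois-fixed function in `L(m∞)` has RATIONAL coordinates in the
  basis `E.x`;
* `exists_fixed_of_divOf_eq` : a principal Galois-invariant divisor is the divisor of a
  Galois-fixed function;
* `exists_form_avoiding` : for an invariant effective `D` with `deg D + 2g ≤ m` and a finite set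
  `T` of places there is a non-zero rational form `a` with `Z_a = D + R`, `R ≥ 0` invariant and
  `R(P) = 0` for all `P ∈ T`;
* `exists_common_residual` : **(Mov2)** if moreover `D₁ ∼ D₂` (both effective invariant), there are
  rational forms `a₁, a₂` and ONE residual divisor `R` avoiding `T` with `Z_{a₁} = D₁ + R`,
  `Z_{a₂} = D₂ + R`.
-/

set_option autoImplicit false

noncomputable section

open AlgebraicCurve

namespace Fermat.Agent.S17.H980

open Fermat.Agent.Lib.RR Fermat.Agent.S17.HWall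
open Fermat.Agent.S17.H77 Fermat.Agent.S17.H680 ModularCurve

variable (F₀ : IntermediateField ℚ (LaurentSeries ℚ)) [FF1 Qb (laurentBaseChange Qb F₀)]

/-- the rational coefficient vector, viewed over `ℚ̄` -/
def castQ {n : ℕ} (a : Fin n → ℚ) : Fin n → Qb := fun j => ((a j : ℚ) : Qb)

omit F₀ in
theorem castQ_ne_zero {n : ℕ} {a : Fin n → ℚ} (ha : a ≠ 0) : castQ a ≠ 0 := by
  intro h
  apply ha
  funext j
  have := congrFun h j
  simpa [castQ] using this

omit [FF1 Qb (laurentBaseChange Qb F₀)] in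
theorem lin_castQ {n : ℕ} (x : Fin n → laurentBaseChange Qb F₀) (a : Fin n → ℚ) :
    ∑ j, castQ a j • x j = ∑ j, a j • x j := by
  refine Finset.sum_congr rfl fun j _ => ?_
  unfold castQ
  rw [← algebraMap_smul Qb (a j) (x j), eq_ratCast]

/-- A Galois-fixed function of `L(m∞)` has rational coordinates. -/
theorem exists_rat_coeff (E : EmbData Qb (laurentBaseChange Qb F₀))
    (hxfix : ∀ i, IsFixed F₀ (E.x i)) (hinf : IsInvariant F₀ (prim E.vinf))
    {f : laurentBaseChange Qb F₀} (hf : f ∈ riemannRochSpace (E.m • prim E.vinf))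
    (hfix : IsFixed F₀ f) : ∃ a : Fin (E.r + 1) → ℚ, ∑ j, a j • E.x j = f := by
  have hD₀ : IsInvariant F₀ (E.m • prim E.vinf) := by
    intro σ
    rw [smul_comm, hinf σ]
  have h := span_rat_eq_fixedPart F₀ E.x hxfix E.x_li (E.m • prim E.vinf) hD₀ E.x_span
  have hmem : f ∈ fixedPart F₀ (riemannRochSpace (E.m • prim E.vinf)) := ⟨hf, hfix⟩
  rw [← h] at hmem
  exact (Submodule.mem_span_range_iff_exists_fun ℚ).mp hmem

/-- A principal invariant divisor is the divisor of a fixed function. -/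
theorem exists_fixed_of_divOf_eq {D : Divisor Qb (laurentBaseChange Qb F₀)}
    (hD : IsInvariant F₀ D) (f : laurentBaseChange Qb F₀) (hf : f ≠ 0)
    (hdiv : divOf f hf = D) :
    ∃ (f₀ : laurentBaseChange Qb F₀) (hf₀ : f₀ ≠ 0), IsFixed F₀ f₀ ∧ divOf f₀ hf₀ = D := by
  have hinv : IsInvariant F₀ (-D) := by
    intro σ
    rw [smul_neg, hD σ]
  have hell : ell (-D) = 1 := by
    have h := ell_add_divOf (-D) f hf
    rw [hdiv, neg_add_cancel, ell_zero] at h
    exact h.symm
  obtain ⟨b, hbL, hbfix, hbli, -, -⟩ := exists_fixed_basis_L F₀ hinv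
  have i0 : Fin (ell (-D)) := ⟨0, by omega⟩
  have hb0 : b i0 ≠ 0 := hbli.ne_zero i0
  have hfL : f ∈ riemannRochSpace (-D) := by
    rw [mem_L_iff_nonneg hf, hdiv, neg_add_cancel]
  refine ⟨b i0, hb0, hbfix i0, ?_⟩
  rw [divOf_eq_of_ell_eq_one hell hb0 hf (hbL i0) hfL, hdiv]

/-- The hyperplane section of a rational form is Galois-invariant. -/
theorem isInvariant_Z (E : EmbData Qb (laurentBaseChange Qb F₀))
    (hxfix : ∀ i, IsFixed F₀ (E.x i)) (hinf : IsInvariant F₀ (prim E.vinf))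
    (a : Fin (E.r + 1) → ℚ) : IsInvariant F₀ (E.Z (castQ a)) := by
  intro σ
  by_cases ha : a = 0
  · subst ha
    have h0 : castQ (0 : Fin (E.r + 1) → ℚ) = 0 := by
      funext j; simp [castQ]
    have : E.Z (0 : Fin (E.r + 1) → Qb) = 0 := by
      unfold EmbData.Z hypDiv
      rw [dif_pos (by simp [lin])]
    rw [h0, this, smul_zero]
  · have ha' := castQ_ne_zero ha
    have hfix : IsFixed F₀ (lin E.x (castQ a)) := by
      intro τ
      unfold lin
      rw [lin_castQ, Finset.smul_sum]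
      refine Finset.sum_congr rfl fun j _ => ?_
      rw [← algebraMap_smul Qb (a j) (E.x j), arithmeticGalois_smul_smul, hxfix j τ,
        AlgEquiv.commutes]
    rw [E.Z_eq ha', smul_add, smul_divOf, smul_comm, hinf σ]
    congr 1
    exact (divOf_congr _ (hfix σ))

/-- **Generic rational hyperplane sections through `D`.** -/
theorem exists_form_avoiding (E : EmbData Qb (laurentBaseChange Qb F₀))
    (hxfix : ∀ i, IsFixed F₀ (E.x i)) (hinf : IsInvariant F₀ (prim E.vinf))
    (D : Divisor Qb (laurentBaseChange Qb F₀)) (hD0 : 0 ≤ D) (hDinv : IsInvariant F₀ D)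
    (hdeg : Divisor.degree D + 2 * (genusFF Qb (laurentBaseChange Qb F₀) : ℤ) ≤ E.m)
    (T : Finset (Place Qb (laurentBaseChange Qb F₀))) :
    ∃ (a : Fin (E.r + 1) → ℚ) (R : Divisor Qb (laurentBaseChange Qb F₀)), a ≠ 0 ∧ 0 ≤ R ∧
      IsInvariant F₀ R ∧ E.Z (castQ a) = D + R ∧ ∀ P ∈ T, R P = 0 := by
  classical
  set D₀ : Divisor Qb (laurentBaseChange Qb F₀) := E.m • prim E.vinf with hD₀def
  have hD₀ : IsInvariant F₀ D₀ := by
    intro σ
    rw [hD₀def, smul_comm, hinf σ]
  have hdegD₀ : Divisor.degree D₀ = E.m := by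
    rw [hD₀def, map_nsmul, degree_prim _ (deg_eq_one _)]
    simp
  have hEinv : IsInvariant F₀ (D₀ - D) := by
    intro σ
    rw [smul_sub, hD₀ σ, hDinv σ]
  have hdegD : 0 ≤ Divisor.degree D := degree_nonneg hD0
  -- the space of rational forms through `D`
  set Λ := rationalForms F₀ E.x (D₀ - D) with hΛ
  have hfin : Module.finrank ℚ Λ = ell (D₀ - D) :=
    finrank_rationalForms F₀ E.x hxfix E.x_li D₀ (D₀ - D) hD₀ hEinv
      (sub_le_self D₀ hD0) E.x_span
  have hell : (ell (D₀ - D) : ℤ) =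
      Divisor.degree (D₀ - D) + 1 - (genusFF Qb (laurentBaseChange Qb F₀) : ℤ) :=
    ell_eq_of_degree_gt (by rw [map_sub, hdegD₀]; omega)
  have hpos : 0 < Module.finrank ℚ Λ := by
    rw [hfin]
    rw [map_sub, hdegD₀] at hell
    omega
  -- the subspaces to avoid
  let sub : Place Qb (laurentBaseChange Qb F₀) → Subspace ℚ Λ := fun P =>
    (rationalForms F₀ E.x (D₀ - D - prim P)).comap Λ.subtype
  have hproper : ∀ P, sub P ≠ ⊤ := by
    intro P htop
    -- then every fixed function of `L(D₀ - D)` lies in `L(D₀ - D - P)`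
    obtain ⟨b, hbL, hbfix, -, hbspan, -⟩ := exists_fixed_basis_L F₀ hEinv
    have hb : ∀ i, b i ∈ riemannRochSpace (D₀ - D - prim P) := by
      intro i
      obtain ⟨a, ha⟩ := exists_rat_coeff F₀ E hxfix hinf
        (L_mono (sub_le_self D₀ hD0) (hbL i)) (hbfix i)
      have haΛ : a ∈ Λ := by
        rw [hΛ, mem_rationalForms, ha]
        exact hbL i
      have : (⟨a, haΛ⟩ : Λ) ∈ sub P := by rw [htop]; trivial
      have h2 : a ∈ rationalForms F₀ E.x (D₀ - D - prim P) := this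
      rw [mem_rationalForms, ha] at h2
      exact h2
    have hle : riemannRochSpace (D₀ - D) ≤ riemannRochSpace (D₀ - D - prim P) := by
      rw [← hbspan, Submodule.span_le]
      rintro _ ⟨i, rfl⟩
      exact hb i
    have h1 : ell (D₀ - D) ≤ ell (D₀ - D - prim P) := by
      unfold ell
      exact Submodule.finrank_mono hle
    have hell' : (ell (D₀ - D - prim P) : ℤ) =
        Divisor.degree (D₀ - D - prim P) + 1 - (genusFF Qb (laurentBaseChange Qb F₀) : ℤ) :=
      ell_eq_of_degree_gt (by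
        rw [map_sub, map_sub, hdegD₀, degree_prim _ (deg_eq_one _)]; omega)
    rw [map_sub, map_sub, hdegD₀, degree_prim _ (deg_eq_one _)] at hell'
    rw [map_sub, hdegD₀] at hell
    omega
  have hbot : (⊥ : Subspace ℚ Λ) ≠ ⊤ := by
    intro h
    have := congrArg (fun S : Subspace ℚ Λ => Module.finrank ℚ S) h
    simp only [finrank_bot, finrank_top] at this
    omega
  let s : Finset (Subspace ℚ Λ) := insert ⊥ (T.image sub)
  have hs : (⊤ : Subspace ℚ Λ) ∉ s := by
    intro h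
    rcases Finset.mem_insert.mp h with h | h
    · exact hbot h.symm
    · obtain ⟨P, -, hP⟩ := Finset.mem_image.mp h
      exact hproper P hP
  have hne := Subspace.biUnion_ne_univ_of_top_notMem hs
  obtain ⟨⟨a, haΛ⟩, hanot⟩ : ∃ a : Λ, a ∉ ⋃ p ∈ s, (p : Set Λ) := by
    by_contra hcon
    apply hne
    ext a
    simp only [Set.mem_univ, iff_true]
    by_contra ha
    exact hcon ⟨a, ha⟩
  simp only [Set.mem_iUnion, not_exists] at hanot
  have ha0 : a ≠ 0 := by
    intro h
    apply hanot ⊥ (Finset.mem_insert_self _ _)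
    rw [SetLike.mem_coe, Submodule.mem_bot]
    exact Subtype.ext h
  have haT : ∀ P ∈ T, a ∉ rationalForms F₀ E.x (D₀ - D - prim P) := by
    intro P hP h
    exact hanot (sub P) (Finset.mem_insert_of_mem (Finset.mem_image_of_mem _ hP)) h
  have ha' := castQ_ne_zero ha0
  have hmem : ∑ j, castQ a j • E.x j ∈ riemannRochSpace (D₀ - D) := by
    rw [lin_castQ]
    exact (mem_rationalForms F₀ E.x _ a).mp haΛ
  have hle : D ≤ E.Z (castQ a) := (le_Z_iff_mem_L E D ha').mpr hmem
  refine ⟨a, E.Z (castQ a) - D, ha0, sub_nonneg.mpr hle, ?_, by abel, ?_⟩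
  · intro σ
    rw [smul_sub, isInvariant_Z F₀ E hxfix hinf a σ, hDinv σ]
  · intro P hP
    by_contra hne0
    have hR : (0 : ℤ) ≤ (E.Z (castQ a) - D) P := by
      have := Finsupp.le_def.mp (sub_nonneg.mpr hle) P
      simpa using this
    have hR1 : (1 : ℤ) ≤ (E.Z (castQ a) - D) P := by omega
    apply haT P hP
    rw [mem_rationalForms, ← lin_castQ]
    have hle2 : D + prim P ≤ E.Z (castQ a) := by
      rw [Finsupp.le_def]
      intro v
      have h1 := Finsupp.le_def.mp hle v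
      by_cases hv : v = P
      · subst hv
        simp only [Finsupp.coe_add, Pi.add_apply, prim_apply_self]
        simp only [Finsupp.coe_sub, Pi.sub_apply] at hR1
        omega
      · simp only [Finsupp.coe_add, Pi.add_apply, prim_apply_of_ne hv]
        omega
    have := (le_Z_iff_mem_L E (D + prim P) ha').mp hle2
    rwa [← sub_sub] at this

/-- **(Mov2)**: two linearly equivalent invariant effective divisors are cut out by rational
hyperplanes with a COMMON residual divisor `R`, which can be chosen to avoid any finite set. -/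
theorem exists_common_residual (E : EmbData Qb (laurentBaseChange Qb F₀))
    (hxfix : ∀ i, IsFixed F₀ (E.x i)) (hinf : IsInvariant F₀ (prim E.vinf))
    (D₁ D₂ : Divisor Qb (laurentBaseChange Qb F₀)) (h₁ : 0 ≤ D₁) (h₂ : 0 ≤ D₂)
    (hinv₁ : IsInvariant F₀ D₁) (hinv₂ : IsInvariant F₀ D₂)
    (hdeg : Divisor.degree D₁ + 2 * (genusFF Qb (laurentBaseChange Qb F₀) : ℤ) ≤ E.m)
    (f : laurentBaseChange Qb F₀) (hf : f ≠ 0) (hdiv : divOf f hf = D₁ - D₂)
    (T : Finset (Place Qb (laurentBaseChange Qb F₀))) :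
    ∃ (a₁ a₂ : Fin (E.r + 1) → ℚ) (R : Divisor Qb (laurentBaseChange Qb F₀)),
      a₁ ≠ 0 ∧ a₂ ≠ 0 ∧ 0 ≤ R ∧ IsInvariant F₀ R ∧
      E.Z (castQ a₁) = D₁ + R ∧ E.Z (castQ a₂) = D₂ + R ∧ ∀ P ∈ T, R P = 0 := by
  classical
  obtain ⟨a₁, R, ha₁, hR0, hRinv, hZ₁, hT⟩ :=
    exists_form_avoiding F₀ E hxfix hinf D₁ h₁ hinv₁ hdeg T
  have hinv12 : IsInvariant F₀ (D₁ - D₂) := by
    intro σ
    rw [smul_sub, hinv₁ σ, hinv₂ σ]
  obtain ⟨f₀, hf₀, hf₀fix, hdiv₀⟩ := exists_fixed_of_divOf_eq F₀ hinv12 f hf hdiv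
  have ha₁' := castQ_ne_zero ha₁
  set f₁ := lin E.x (castQ a₁) with hf₁def
  have hf₁ : f₁ ≠ 0 := E.lin_ne_zero ha₁'
  have hf₁fix : IsFixed F₀ f₁ := by
    intro τ
    rw [hf₁def]
    unfold lin
    rw [lin_castQ, Finset.smul_sum]
    refine Finset.sum_congr rfl fun j _ => ?_
    rw [← algebraMap_smul Qb (a₁ j) (E.x j), arithmeticGalois_smul_smul, hxfix j τ,
      AlgEquiv.commutes]
  set f₂ := f₁ * f₀⁻¹ with hf₂def
  have hf₂ : f₂ ≠ 0 := mul_ne_zero hf₁ (inv_ne_zero hf₀)
  have hf₂fix : IsFixed F₀ f₂ := by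
    intro τ
    rw [hf₂def, smul_mul', smul_inv'', hf₁fix τ, hf₀fix τ]
  have hdiv₂ : divOf f₂ hf₂ + E.m • prim E.vinf = D₂ + R := by
    have h1 : divOf (K := Qb) f₂ hf₂ = divOf f₁ hf₁ - divOf f₀ hf₀ := by
      rw [divOf_congr hf₂ hf₂def, divOf_mul f₁ f₀⁻¹ hf₁ (inv_ne_zero hf₀), divOf_inv f₀ hf₀,
        sub_eq_add_neg]
    have h2 : divOf f₁ hf₁ + E.m • prim E.vinf = D₁ + R := by
      rw [← hZ₁, E.Z_eq ha₁']
    rw [h1, hdiv₀]
    have h3 : divOf (K := Qb) f₁ hf₁ = D₁ + R - E.m • prim E.vinf := by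
      rw [← h2]; abel
    rw [h3]
    abel
  have hf₂L : f₂ ∈ riemannRochSpace (E.m • prim E.vinf) := by
    rw [mem_L_iff_nonneg hf₂, add_comm, hdiv₂]
    exact add_nonneg h₂ hR0
  obtain ⟨a₂, ha₂⟩ := exists_rat_coeff F₀ E hxfix hinf hf₂L hf₂fix
  have ha₂0 : a₂ ≠ 0 := by
    rintro rfl
    apply hf₂
    rw [← ha₂]
    simp
  have ha₂' := castQ_ne_zero ha₂0
  have hlin₂ : lin E.x (castQ a₂) = f₂ := by
    unfold lin
    rw [lin_castQ, ha₂]
  refine ⟨a₁, a₂, R, ha₁, ha₂0, hR0, hRinv, hZ₁, ?_, hT⟩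
  rw [E.Z_eq ha₂', divOf_congr (E.lin_ne_zero ha₂') hlin₂]
  exact hdiv₂

end Fermat.Agent.S17.H980
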