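import Fermat.Agent.S17.H17.HContract
import Fermat.Agent.S17.H380.AbsSegre

/-!
# S17 / tower H, WALL leaf A10 (PLUCKER / LAPLACE) (helper980)

`ω = y₀ ∧ … ∧ y_{d-1}`.  The coordinates of `ω ∧ z` are linear forms `laplaceW y e` in `z`
(Laplace expansion along the last row), which vanish at the `yᵢ` and are fixed integer
combinations of the coordinates of `ω`; hence `ht W ≤ ht (plucker y) + C(n, d)`.

* `dot_laplaceW` : `⟨laplaceW y e, z⟩ = plucker (Fin.snoc y z) e`;
* `dot_laplaceW_self` : `⟨laplaceW y e, y i⟩ = 0`;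
* `pluckerStep` : the statement `Wall.PluckerStepStatement K` of `S17/H710/Wall/Defs.lean`
  (in unfolded form), for a field `K` of characteristic zero which is algebraic over `ℚ`.
-/

set_option autoImplicit false

noncomputable section

namespace Fermat.Agent.S17.H980

open Fermat.Agent.S17.HWall Fermat.Agent.S17.HContract

section Laplace

variable {K : Type*} [Field K] {n d : ℕ}

/-- the embedding `e ∘ c.succAbove` (drop the column `c`) -/
def dropEmb (e : Fin (d + 1) ↪ Fin n) (c : Fin (d + 1)) : Fin d ↪ Fin n :=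
  ⟨fun j => e (c.succAbove j), fun _ _ h => Fin.succAbove_right_injective (e.injective h)⟩

@[simp] theorem dropEmb_apply (e : Fin (d + 1) ↪ Fin n) (c : Fin (d + 1)) (j : Fin d) :
    dropEmb e c j = e (c.succAbove j) := rfl

/-- the integer matrix of the Laplace expansion -/
def laplaceM (K : Type*) [Field K] (n d : ℕ) :
    ((Fin (d + 1) ↪ Fin n) × Fin n) × (Fin d ↪ Fin n) → K :=
  fun q => ∑ c : Fin (d + 1),
    if q.1.1 c = q.1.2 ∧ dropEmb q.1.1 c = q.2 then (-1 : K) ^ (d + (c : ℕ)) else 0

/-- the Laplace coefficient vector: `⟨laplaceW y e, z⟩ = (y₀ ∧ … ∧ y_{d-1} ∧ z)_e` -/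
def laplaceW (y : Fin d → Fin n → K) (e : Fin (d + 1) ↪ Fin n) : Fin n → K :=
  fun j => ∑ c : Fin (d + 1),
    if e c = j then (-1 : K) ^ (d + (c : ℕ)) * plucker y (dropEmb e c) else 0

theorem laplaceW_eq_sum (y : Fin d → Fin n → K) (e : Fin (d + 1) ↪ Fin n) (j : Fin n) :
    laplaceW y e j = ∑ e' : Fin d ↪ Fin n, laplaceM K n d ((e, j), e') * plucker y e' := by
  classical
  unfold laplaceW laplaceM
  simp only [Finset.sum_mul]
  rw [Finset.sum_comm]
  refine Finset.sum_congr rfl fun c _ => ?_
  by_cases h : e c = j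
  · rw [if_pos h]
    rw [Finset.sum_eq_single (dropEmb e c)]
    · rw [if_pos ⟨h, rfl⟩]
    · intro e' _ hne
      rw [if_neg (fun hh => hne hh.2.symm), zero_mul]
    · intro hh
      exact absurd (Finset.mem_univ _) hh
  · rw [if_neg h]
    symm
    apply Finset.sum_eq_zero
    intro e' _
    rw [if_neg (fun hh => h hh.1), zero_mul]

theorem dot_laplaceW (y : Fin d → Fin n → K) (z : Fin n → K) (e : Fin (d + 1) ↪ Fin n) :
    dot (laplaceW y e) z = plucker (Fin.snoc y z : Fin (d + 1) → Fin n → K) e := by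
  classical
  have hL : dot (laplaceW y e) z =
      ∑ c : Fin (d + 1), (-1 : K) ^ (d + (c : ℕ)) * plucker y (dropEmb e c) * z (e c) := by
    unfold laplaceW
    show ∑ j, (∑ c : Fin (d + 1), if e c = j then _ else 0) * z j = _
    simp only [Finset.sum_mul]
    rw [Finset.sum_comm]
    refine Finset.sum_congr rfl fun c _ => ?_
    rw [Finset.sum_eq_single (e c)]
    · rw [if_pos rfl]
    · intro j _ hne
      rw [if_neg (fun hh => hne hh.symm), zero_mul]
    · intro hh
      exact absurd (Finset.mem_univ _) hh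
  rw [hL]
  unfold plucker
  rw [Matrix.det_succ_row _ (Fin.last d)]
  refine Finset.sum_congr rfl fun c _ => ?_
  have h1 : (Matrix.of fun i j => (Fin.snoc y z : Fin (d + 1) → Fin n → K) i (e j))
      (Fin.last d) c = z (e c) := by
    simp [Matrix.of_apply]
  have h2 : (Matrix.of fun i j => (Fin.snoc y z : Fin (d + 1) → Fin n → K) i (e j)).submatrix
      (Fin.last d).succAbove c.succAbove = Matrix.of fun i j => y i (dropEmb e c j) := by
    ext i j
    simp [Matrix.submatrix_apply, Matrix.of_apply, Fin.succAbove_last]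
  rw [h1, h2]
  simp only [Fin.val_last]
  ring

theorem dot_laplaceW_self (y : Fin d → Fin n → K) (e : Fin (d + 1) ↪ Fin n) (i : Fin d) :
    dot (laplaceW y e) (y i) = 0 := by
  rw [dot_laplaceW]
  unfold plucker
  apply Matrix.det_zero_of_row_eq (i := i.castSucc) (j := Fin.last d)
  · exact (Fin.castSucc_lt_last i).ne
  · funext j
    simp [Matrix.of_apply]

end Laplace

section Height

variable (K : Type*) [Field K] [CharZero K]

/-- **A10** (`Wall.PluckerStepStatement K`, unfolded). -/
theorem pluckerStep (hK : ∀ a : K, IsIntegral ℚ a) (n d : ℕ) :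
    ∃ C : ℝ, ∀ (y : Fin d → Fin n → K),
      ∃ W : (Fin (d + 1) ↪ Fin n) → Fin n → K,
        (∀ e i, dot (W e) (y i) = 0) ∧
        (∀ (z : Fin n → K) e,
          dot (W e) z = plucker (Fin.snoc y z : Fin (d + 1) → Fin n → K) e) ∧
        ht (fun q : (Fin (d + 1) ↪ Fin n) × Fin n => W q.1 q.2) ≤ ht (plucker y) + C := by
  classical
  refine ⟨Real.log (Nat.card (Fin d ↪ Fin n)) + ht (laplaceM K n d), fun y => ?_⟩
  refine ⟨laplaceW y, fun e i => dot_laplaceW_self y e i, fun z e => dot_laplaceW y z e, ?_⟩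
  have h := H380.absLogHeight_linearMap_apply_le (laplaceM K n d) (plucker y)
    (fun a => hK _) (fun i => hK _)
  have heq : (fun q : (Fin (d + 1) ↪ Fin n) × Fin n => laplaceW y q.1 q.2) =
      fun q => ∑ e' : Fin d ↪ Fin n, laplaceM K n d (q, e') * plucker y e' := by
    funext q
    exact laplaceW_eq_sum y q.1 q.2
  unfold ht
  rw [heq]
  linarith

end Height

end Fermat.Agent.S17.H980
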