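import Fermat.Agent.S17.H980.PosLin
import Fermat.Agent.S17.H17.HContract

/-!
# S17 / tower H: (MINK) in the language of the TOP/WALL contract (helper980)

`E : EmbData ℚ̄ F` an embedding datum whose basis `E.x` of `L(m∞)` consists of Galois-fixed
functions, `∞` Galois-invariant.  For distinct places `P₁, …, P_d` with Galois-invariant sum
`D = Σ P_i` and `d + 2g ≤ m`:

* `pt_spec_iff_mem_L` : `⟨a, pt P⟩ = 0 ↔ Σ aⱼ xⱼ ∈ L(m∞ - P)` (all `a`);
* `linearIndependent_pt` : the points `E.pt (P i)` are linearly independent;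
* `le_Z_iff_mem_L` : `D ≤ Z_a ↔ Σ aⱼ xⱼ ∈ L(m∞ - D)` for `a ≠ 0`;
* `exists_form_through` : **(MINK)** there is a non-zero INTEGRAL form `a` with `D ≤ Z_a` and
  `ht a ≤ ht (pt P₁ ∧ … ∧ pt P_d) / k + log k`, `k = r + 1 - d = m - d + 1 - g`,
  with `ht = HContract.ht = H380.absLogHeight` and `plucker = HContract.plucker`.
-/

set_option autoImplicit false

noncomputable section

open AlgebraicCurve

namespace Fermat.Agent.S17.H980

open Fermat.Agent.Lib.RR Fermat.Agent.S17.HWall

section Emb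

variable {K F : Type*} [Field K] [Field F] [Algebra K F] [FF1 K F]

/-- `pt_spec` for all `a`, in terms of Riemann–Roch spaces. -/
theorem pt_spec_iff_mem_L (E : EmbData K F) (P : Place K F) (a : Fin (E.r + 1) → K) :
    ∑ j, a j * E.pt P j = 0 ↔
      ∑ j, a j • E.x j ∈ riemannRochSpace (E.m • prim E.vinf - prim P) := by
  by_cases ha : a = 0
  · subst ha
    simp
  have h1 := E.pt_spec P a ha
  have hdot : dot a (E.pt P) = ∑ j, a j * E.pt P j := rfl
  have hlin : lin E.x a = ∑ j, a j • E.x j := rfl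
  rw [← hdot, h1, ← hlin]
  have hZ : hypDiv E.vinf E.m E.x a P = P.ord (lin E.x a) + (E.m • prim E.vinf : Divisor K F) P :=
    E.Z_apply ha P
  rw [hZ]
  have hmem := mem_L_iff.mp (E.lin_mem a)
  have hne := E.lin_ne_zero ha
  constructor
  · intro h
    rw [mem_L_iff]
    intro v
    right
    rcases hmem v with h0 | hv
    · exact absurd h0 hne
    by_cases hvP : v = P
    · subst hvP
      simp only [Finsupp.coe_sub, Pi.sub_apply, prim_apply_self]
      omega
    · simp only [Finsupp.coe_sub, Pi.sub_apply, prim_apply_of_ne hvP]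
      omega
  · intro h
    rw [mem_L_iff] at h
    rcases h P with h0 | hP
    · exact absurd h0 hne
    simp only [Finsupp.coe_sub, Pi.sub_apply, prim_apply_self] at hP
    omega

/-- `D ≤ Z_a ↔ Σ aⱼ xⱼ ∈ L(m∞ - D)` for `a ≠ 0`. -/
theorem le_Z_iff_mem_L (E : EmbData K F) (D : Divisor K F) {a : Fin (E.r + 1) → K}
    (ha : a ≠ 0) :
    D ≤ E.Z a ↔ ∑ j, a j • E.x j ∈ riemannRochSpace (E.m • prim E.vinf - D) := by
  have hlin : lin E.x a = ∑ j, a j • E.x j := rfl
  have hne := E.lin_ne_zero ha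
  rw [← hlin, mem_L_iff, Finsupp.le_def]
  constructor
  · intro h v
    right
    have := h v
    rw [E.Z_apply ha v] at this
    simp only [Finsupp.coe_sub, Pi.sub_apply]
    omega
  · intro h v
    rcases h v with h0 | hv
    · exact absurd h0 hne
    rw [E.Z_apply ha v]
    simp only [Finsupp.coe_sub, Pi.sub_apply] at hv
    omega

/-- `r + 1 = m + 1 - g`. -/
theorem r_add_one_eq (E : EmbData K F) : ((E.r + 1 : ℕ) : ℤ) = E.m + 1 - (genusFF K F : ℤ) := by
  have h1 : ell (E.m • prim E.vinf) = E.r + 1 := by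
    unfold ell
    rw [← E.x_span, finrank_span_eq_card E.x_li, Fintype.card_fin]
  have h2 : (ell (E.m • prim E.vinf) : ℤ) =
      Divisor.degree (E.m • prim E.vinf) + 1 - (genusFF K F : ℤ) := by
    apply ell_eq_of_degree_gt
    rw [map_nsmul, degree_prim _ (deg_eq_one _), genusFF_eq_genusR]
    have := E.hm
    simp only [nsmul_eq_mul, mul_one]
    omega
  rw [map_nsmul, degree_prim _ (deg_eq_one _)] at h2
  rw [← h1, h2]
  simp

/-- The points of a reduced divisor of degree `d ≤ m - 2g + 1` are linearly independent. -/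
theorem linearIndependent_pt (E : EmbData K F) {d : ℕ} (P : Fin d → Place K F)
    (hP : Function.Injective P) (hdeg : d + 2 * genusFF K F ≤ E.m + 1) :
    LinearIndependent K fun i => E.pt (P i) := by
  apply linearIndependent_points (E.m • prim E.vinf) E.x E.x_span P hP
  · rw [map_nsmul, degree_prim _ (deg_eq_one _)]
    simp only [nsmul_eq_mul, mul_one]
    omega
  · intro i a
    exact pt_spec_iff_mem_L E (P i) a

end Emb

section Rational

open Fermat.Agent.S17.H77 Fermat.Agent.S17.H680 ModularCurve Fermat.Agent.S17.HContract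

variable (F₀ : IntermediateField ℚ (LaurentSeries ℚ)) [FF1 Qb (laurentBaseChange Qb F₀)]

/-- **(MINK) in contract form.** -/
theorem exists_form_through (E : EmbData Qb (laurentBaseChange Qb F₀))
    (hxfix : ∀ i, IsFixed F₀ (E.x i)) (hinf : IsInvariant F₀ (prim E.vinf))
    {d : ℕ} (P : Fin d → Place Qb (laurentBaseChange Qb F₀)) (hP : Function.Injective P)
    (hPinv : IsInvariant F₀ (sumPrim P))
    (hdeg : d + 2 * genusFF Qb (laurentBaseChange Qb F₀) ≤ E.m) :
    ∃ a : Fin (E.r + 1) → ℤ, a ≠ 0 ∧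
      sumPrim P ≤ E.Z (fun j => ((a j : ℤ) : Qb)) ∧
      ht (fun j => ((a j : ℤ) : Qb)) ≤
        (1 / ((E.r + 1 - d : ℕ) : ℝ)) * ht (plucker fun i => E.pt (P i)) +
          Real.log ((E.r + 1 - d : ℕ) : ℝ) := by
  have hr := r_add_one_eq E
  have hD₀ : IsInvariant F₀ (E.m • prim E.vinf) := by
    intro σ
    rw [smul_comm, hinf σ]
  obtain ⟨a, ha0, hmem, hle⟩ := exists_fixed_form_absLogHeight_le F₀ E.x hxfix E.x_li
    (E.m • prim E.vinf) hD₀ E.x_span P hP hPinv
    (by
      rw [map_nsmul, degree_prim _ (deg_eq_one _)]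
      simp only [nsmul_eq_mul, mul_one]
      omega)
    (by omega) (fun i => E.pt (P i)) (fun i a => pt_spec_iff_mem_L E (P i) a)
  have hcast : ∀ j, (((a j : ℤ) : ℚ) : Qb) = ((a j : ℤ) : Qb) := fun j => by push_cast; rfl
  have ha0' : (fun j => ((a j : ℤ) : Qb)) ≠ 0 := by
    intro h
    apply ha0
    funext j
    have := congrFun h j
    simpa using this
  refine ⟨a, ha0, ?_, ?_⟩
  · rw [le_Z_iff_mem_L E _ ha0']
    have : ∑ j, ((a j : ℤ) : Qb) • E.x j = ∑ j, ((a j : ℤ) : ℚ) • E.x j := by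
      refine Finset.sum_congr rfl fun j _ => ?_
      rw [← hcast j, ← algebraMap_smul Qb ((a j : ℤ) : ℚ) (E.x j), eq_ratCast]
    rw [this]
    exact hmem
  · have h1 : ht (fun j => ((a j : ℤ) : Qb)) = Height.logHeight (fun j => ((a j : ℤ) : ℚ)) := by
      have h := H380.absLogHeight_eq (algebraMap ℚ Qb) (fun j => ((a j : ℤ) : ℚ))
      rw [Module.finrank_self, Nat.cast_one, inv_one, one_mul] at h
      rw [← h]
      have h2 : (fun j => ((a j : ℤ) : Qb)) = fun j => algebraMap ℚ Qb ((a j : ℤ) : ℚ) := by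
        funext j
        rw [eq_ratCast, hcast j]
      rw [h2]
    rw [h1]
    exact hle

end Rational

end Fermat.Agent.S17.H980
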