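import Fermat.Agent.S17.H710.Wall.Defs
import Fermat.Agent.S17.H980.PosLinEmb
import Fermat.Agent.S17.H980.PluckerStep

/-!
# S17 / tower H, WALL leaves G-INDEP, G-ENUM, G-INF, A2 (MINOR), A10 in frozen form (helper980)

* `indep E : Wall.IndepStatement E` — at most `m - 2g + 1` distinct places have linearly
  independent coordinate vectors, i.e. non-vanishing Plücker vector (Riemann–Roch);
* `enum : Wall.EnumStatement K F` — enumeration of an effective divisor with multiplicities;
* `inf : Wall.InfStatement K F` (`K` infinite) — there are infinitely many places;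
* `minorStatement K : Wall.MinorStatement K` — a matrix whose rows span a space of dimension `κ`
  has a non-zero `κ × κ` minor;
* `pluckerStepStatement K : Wall.PluckerStepStatement K` — A10 (`H980.pluckerStep`).
-/

set_option autoImplicit false

noncomputable section

open AlgebraicCurve

namespace Fermat.Agent.S17.H980

open Fermat.Agent.Lib.RR Fermat.Agent.S17.HWall Fermat.Agent.S17.HContract
open Fermat.Agent.S17.Wall

section Indep

variable {K F : Type*} [Field K] [Field F] [Algebra K F] [FF1 K F]

/-- **G-INDEP.** -/
theorem indep (E : EmbData K F) : IndepStatement E := by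
  intro d P hd hP
  have hli : LinearIndependent K fun i => E.pt (P i) :=
    linearIndependent_pt E P hP (by rw [genusFF_eq_genusR]; exact hd)
  obtain ⟨e, he⟩ := exists_det_submatrix_ne_zero (Matrix.of fun i => E.pt (P i)) hli
  intro h0
  apply he
  have := congrFun h0 e
  exact this

/-- **G-ENUM.** -/
theorem enum : EnumStatement K F := by
  intro D hD k
  induction k generalizing D with
  | zero =>
    intro hdeg
    refine ⟨Fin.elim0, ?_⟩
    rw [Finset.univ_eq_empty, Finset.sum_empty]
    exact H680.eq_zero_of_nonneg_of_degree_eq_zero hD (by simpa using hdeg)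
  | succ k ih =>
    intro hdeg
    have hne : D ≠ 0 := by
      rintro rfl
      rw [map_zero] at hdeg
      have : (0 : ℤ) = (k : ℤ) + 1 := by exact_mod_cast hdeg
      omega
    obtain ⟨P, hP⟩ : ∃ P, D P ≠ 0 := by
      by_contra hcon
      apply hne
      ext v
      by_contra hv
      exact hcon ⟨v, hv⟩
    have hP0 : (0 : ℤ) ≤ D P := by simpa using Finsupp.le_def.mp hD P
    have hD' : 0 ≤ D - prim P := by
      rw [Finsupp.le_def]
      intro v
      have h0 : (0 : ℤ) ≤ D v := by simpa using Finsupp.le_def.mp hD v
      by_cases hv : v = P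
      · subst hv
        simp only [Finsupp.coe_zero, Pi.zero_apply, Finsupp.coe_sub, Pi.sub_apply,
          prim_apply_self]
        omega
      · simp only [Finsupp.coe_zero, Pi.zero_apply, Finsupp.coe_sub, Pi.sub_apply,
          prim_apply_of_ne hv]
        omega
    have hdeg' : Divisor.degree (D - prim P) = (k : ℕ) := by
      rw [map_sub, degree_prim _ (deg_eq_one _), hdeg]
      push_cast
      ring
    obtain ⟨A, hA⟩ := ih (D - prim P) hD' hdeg'
    refine ⟨Fin.snoc A P, ?_⟩
    rw [Fin.sum_univ_castSucc]
    simp only [Fin.snoc_castSucc, Fin.snoc_last]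
    rw [← hA]
    abel

/-- A non-constant function has a zero. -/
theorem exists_ord_pos_of_not_const {f : F} (hf : f ∉ Set.range (algebraMap K F)) :
    ∃ v : Place K F, 0 < v.ord f := by
  by_contra hcon
  have hle : ∀ v : Place K F, v.ord f ≤ 0 := fun v => not_lt.mp fun h => hcon ⟨v, h⟩
  have hf0 : f ≠ 0 := by
    rintro rfl
    exact hf ⟨0, map_zero _⟩
  have h1 : 0 ≤ -divOf (K := K) f hf0 := by
    rw [Finsupp.le_def]
    intro v
    have := hle v
    simp only [Finsupp.coe_zero, Pi.zero_apply, Finsupp.coe_neg, Pi.neg_apply, divOf_apply]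
    omega
  have h2 : -divOf (K := K) f hf0 = 0 :=
    H680.eq_zero_of_nonneg_of_degree_eq_zero h1 (by rw [map_neg, degree_divOf, neg_zero])
  have h3 : f ∈ riemannRochSpace (0 : Divisor K F) := by
    rw [H680.mem_L_iff_nonneg hf0, zero_add]
    have : divOf (K := K) f hf0 = 0 := by simpa using h2
    rw [this]
  rw [L_zero] at h3
  obtain ⟨c, hc⟩ := h3
  exact hf ⟨c, hc⟩

/-- **G-INF.** -/
theorem inf [Infinite K] : InfStatement K F := by
  classical
  obtain ⟨x, hx, -⟩ := FF1.exists_finite (K := K) (F := F)
  have hnc : ∀ c : K, x - algebraMap K F c ∉ Set.range (algebraMap K F) := by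
    rintro c ⟨c', hc'⟩
    apply hx
    have : x = algebraMap K F (c' + c) := by
      rw [map_add, hc']
      ring
    rw [this]
    exact isAlgebraic_algebraMap _
  choose P hP using fun c => exists_ord_pos_of_not_const (hnc c)
  have hinj : Function.Injective P := by
    intro c c' h
    by_contra hne
    have h1 : 0 < (P c).ord (x - algebraMap K F c) := hP c
    have h2 : 0 < (P c).ord (x - algebraMap K F c') := by rw [h]; exact hP c'
    have h3 := ord_add_of_le (P c) (n := 1) (f := x - algebraMap K F c')
      (g := -(x - algebraMap K F c)) (Or.inr h2) (Or.inr (by rw [ord_neg]; exact h1))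
    have h4 : x - algebraMap K F c' + -(x - algebraMap K F c) = algebraMap K F (c - c') := by
      rw [map_sub]
      ring
    rw [h4] at h3
    rcases h3 with h3 | h3
    · have : c - c' = 0 := by
        have hinj' : Function.Injective (algebraMap K F) := (algebraMap K F).injective
        exact hinj' (by rw [h3, map_zero])
      exact hne (sub_eq_zero.mp this)
    · rw [ord_algebraMap] at h3
      omega
  intro L
  exact ⟨fun i => P (Infinite.natEmbedding K i), fun i j h =>
    Fin.ext ((Infinite.natEmbedding K).injective (hinj h))⟩

end Indep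

section Minor

variable (K : Type*) [Field K]

/-- **A2 (MINOR).** -/
theorem minorStatement : MinorStatement K := by
  classical
  intro σ c _ κ B hrank
  have : Fintype c := Fintype.ofFinite c
  -- extract `κ` independent rows
  obtain ⟨ι, a, ha, hsp, hli⟩ := exists_linearIndependent' K B
  have hfin : Module.finrank K (Submodule.span K (Set.range (B ∘ a))) = κ := by
    rw [hsp, hrank]
  have : Finite ι := hli.finite
  let _ : Fintype ι := Fintype.ofFinite ι
  have hcard : Fintype.card ι = κ := by
    rw [← hfin, finrank_span_eq_card hli]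
  let eqv : Fin κ ≃ ι := (Fintype.equivFinOfCardEq hcard).symm
  have hli' : LinearIndependent K (fun i : Fin κ => B (a (eqv i))) :=
    hli.comp eqv eqv.injective
  obtain ⟨e, he⟩ := exists_det_submatrix_ne_zero
    (Matrix.of fun i : Fin κ => B (a (eqv i))) hli'
  intro h0
  apply he
  have := congrFun h0 (fun i => a (eqv i), fun j => e j)
  exact this

end Minor

section Plucker

variable (K : Type*) [Field K] [CharZero K]

/-- **A10 (PLUCKER / LAPLACE)**, frozen form. -/
theorem pluckerStepStatement (hK : ∀ a : K, IsIntegral ℚ a) : PluckerStepStatement K :=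
  pluckerStep K hK

end Plucker

end Fermat.Agent.S17.H980
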