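import Fermat.Agent.S17.H980.Siegel

/-!
# Primitive integral representatives (piece MINK of S17 / tower H, helper980)

* `exists_det_submatrix_ne_zero` : over a field, linearly independent rows give a non-vanishing
  maximal minor; `exists_vecMul_eq_zero_of_minors` is the contrapositive.
* `exists_reduce_step` : if a prime divides all maximal minors of an integer matrix, one row can be
  replaced so that all minors are multiplied by `c / p` with `0 < |c| < p`.
* `exists_primitive` : every integer matrix with a non-vanishing maximal minor has the same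
  rational row space as an integer matrix whose maximal minors have gcd `1`.
-/

set_option autoImplicit false

open Matrix

namespace Fermat.Agent.S17.H980

section Field

variable {ι₁ ι : Type*} [Fintype ι₁] [DecidableEq ι₁] [Fintype ι] [DecidableEq ι]
variable {K : Type*} [Field K]

/-- Over a field, a matrix with linearly independent rows has a non-vanishing maximal minor. -/
theorem exists_det_submatrix_ne_zero (M : Matrix ι₁ ι K) (h : LinearIndependent K M.row) :
    ∃ e : ι₁ ↪ ι, (M.submatrix id e).det ≠ 0 := by
  classical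
  have hrank : M.rank = Fintype.card ι₁ := h.rank_matrix
  have hspan : Submodule.span K (Set.range M.col) = ⊤ := by
    apply Submodule.eq_top_of_finrank_eq
    rw [← Matrix.rank_eq_finrank_span_cols, hrank, Module.finrank_fintype_fun_eq_card]
  obtain ⟨κ, a, ha, hsp, hli⟩ := exists_linearIndependent' K M.col
  rw [hspan] at hsp
  haveI : Finite κ := Finite.of_injective a ha
  letI : Fintype κ := Fintype.ofFinite κ
  have hcard : Fintype.card κ = Fintype.card ι₁ := by
    have := linearIndependent_iff_card_eq_finrank_span.mp hli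
    rw [this, Set.finrank, hsp, finrank_top, Module.finrank_fintype_fun_eq_card]
  let ε : ι₁ ≃ κ := Fintype.equivOfCardEq hcard.symm
  refine ⟨⟨a ∘ ε, ha.comp ε.injective⟩, ?_⟩
  have hli' : LinearIndependent K (M.submatrix id (a ∘ ε)).col := by
    have h1 : (M.submatrix id (a ∘ ε)).col = (M.col ∘ a) ∘ ε := by
      funext j r
      rfl
    rw [h1]
    exact hli.comp ε ε.injective
  have hu := Matrix.linearIndependent_cols_iff_isUnit.mp hli'
  have := (Matrix.isUnit_iff_isUnit_det _).mp hu
  exact this.ne_zero

/-- Over a field, if all maximal minors vanish, the rows are linearly dependent. -/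
theorem exists_vecMul_eq_zero_of_minors (M : Matrix ι₁ ι K)
    (h : ∀ e : ι₁ ↪ ι, (M.submatrix id e).det = 0) :
    ∃ c : ι₁ → K, c ≠ 0 ∧ c ᵥ* M = 0 := by
  classical
  have hnli : ¬ LinearIndependent K M.row := by
    intro hli
    obtain ⟨e, he⟩ := exists_det_submatrix_ne_zero M hli
    exact he (h e)
  rw [Fintype.not_linearIndependent_iff] at hnli
  obtain ⟨c, hc, i, hi⟩ := hnli
  refine ⟨c, fun h0 => hi (by rw [h0]; rfl), ?_⟩
  funext j
  have := congrFun hc j
  simp only [Finset.sum_apply, Pi.smul_apply, smul_eq_mul, Pi.zero_apply] at this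
  simp only [Matrix.vecMul, dotProduct, Pi.zero_apply]
  exact this

end Field

section Reduce

variable {ι₁ ι : Type*} [Fintype ι₁] [DecidableEq ι₁] [Fintype ι] [DecidableEq ι]

/-- **Reduction step.**  If a prime `p` divides all maximal minors of `B₀`, one row of `B₀` can be
replaced by an integral vector such that all maximal minors are multiplied by `c / p`, `0 < |c| < p`,
and the integral kernel does not grow. -/
theorem exists_reduce_step (B₀ : Matrix ι₁ ι ℤ) (p : ℕ) [hp : Fact p.Prime]
    (hdvd : ∀ e : ι₁ ↪ ι, (p : ℤ) ∣ minor B₀ e) :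
    ∃ (B₁ : Matrix ι₁ ι ℤ) (c : ℤ), c ≠ 0 ∧ |c| < p ∧
      (∀ e : ι₁ ↪ ι, (p : ℤ) * minor B₁ e = c * minor B₀ e) ∧
      (∀ a : ι → ℤ, B₁ *ᵥ a = 0 → B₀ *ᵥ a = 0) := by
  classical
  -- reduce mod p
  let f : ℤ →+* ZMod p := Int.castRingHom (ZMod p)
  have hminor : ∀ e : ι₁ ↪ ι, ((B₀.map f).submatrix id e).det = 0 := by
    intro e
    have h1 : (B₀.map f).submatrix id e = (B₀.submatrix id e).map f := rfl
    rw [h1, ← RingHom.mapMatrix_apply, ← RingHom.map_det]
    exact (ZMod.intCast_zmod_eq_zero_iff_dvd _ p).mpr (hdvd e)
  obtain ⟨c, hc0, hc⟩ := exists_vecMul_eq_zero_of_minors (B₀.map f) hminor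
  obtain ⟨r0, hr0⟩ : ∃ r0, c r0 ≠ 0 := by
    by_contra hcon
    exact hc0 (funext fun r => not_not.mp fun h => hcon ⟨r, h⟩)
  let ct : ι₁ → ℤ := fun r => (c r).valMinAbs
  have hct : ∀ r, ((ct r : ℤ) : ZMod p) = c r := fun r => ZMod.coe_valMinAbs (c r)
  have hct0 : ct r0 ≠ 0 := by
    intro h
    apply hr0
    rw [← hct r0, h]; simp
  have hctlt : |ct r0| < p := by
    have h1 : (ct r0).natAbs ≤ p / 2 := ZMod.natAbs_valMinAbs_le (c r0)
    have h2 : p / 2 < p := Nat.div_lt_self hp.out.pos (by norm_num)
    have h3 : ((ct r0).natAbs : ℤ) < p := by exact_mod_cast lt_of_le_of_lt h1 h2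
    rwa [Int.natCast_natAbs] at h3
  -- the combination of rows is divisible by `p`
  have hw : ∀ i, (p : ℤ) ∣ ∑ r, ct r * B₀ r i := by
    intro i
    rw [← ZMod.intCast_zmod_eq_zero_iff_dvd]
    have := congrFun hc i
    simp only [Matrix.vecMul, dotProduct, Matrix.map_apply, Pi.zero_apply] at this
    push_cast
    simp only [hct]
    exact this
  choose w hwe using hw
  refine ⟨B₀.updateRow r0 w, ct r0, hct0, hctlt, ?_, ?_⟩
  · intro e
    unfold minor
    have h1 : (B₀.updateRow r0 w).submatrix id e = (B₀.submatrix id e).updateRow r0 (w ∘ e) := by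
      ext r j
      by_cases hr : r = r0
      · subst hr; simp [Matrix.updateRow_apply]
      · simp [Matrix.updateRow_apply, hr]
    rw [h1, ← Matrix.det_updateRow_smul]
    have h2 : (p : ℤ) • (w ∘ e) = ∑ r, ct r • (B₀.submatrix id e) r := by
      funext j
      simp only [Pi.smul_apply, Function.comp_apply, smul_eq_mul, Finset.sum_apply,
        Matrix.submatrix_apply, id]
      exact (hwe (e j)).symm
    rw [h2, Matrix.det_updateRow_sum, smul_eq_mul]
  · intro a ha
    funext r
    by_cases hr : r = r0
    · subst hr
      -- `p * (w · a) = ∑ ct r (B₀ r · a)` and all other rows kill `a`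
      have hother : ∀ r', r' ≠ r → ∑ i, B₀ r' i * a i = 0 := by
        intro r' hr'
        have := congrFun ha r'
        simp only [Matrix.mulVec, dotProduct, Matrix.updateRow_apply, hr', if_false,
          Pi.zero_apply] at this
        exact this
      have hself : ∑ i, w i * a i = 0 := by
        have := congrFun ha r
        simp only [Matrix.mulVec, dotProduct, Matrix.updateRow_apply, if_true,
          Pi.zero_apply] at this
        exact this
      have hsum : (p : ℤ) * ∑ i, w i * a i = ∑ r', ct r' * ∑ i, B₀ r' i * a i := by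
        rw [Finset.mul_sum]
        simp_rw [Finset.mul_sum]
        rw [Finset.sum_comm]
        apply Finset.sum_congr rfl
        intro i _
        rw [← mul_assoc, ← hwe i, Finset.sum_mul]
        apply Finset.sum_congr rfl
        intro r' _
        ring
      rw [hself, mul_zero] at hsum
      rw [Finset.sum_eq_single r (fun r' _ hr' => by rw [hother r' hr', mul_zero])
        (fun h => absurd (Finset.mem_univ _) h)] at hsum
      have := (mul_eq_zero.mp hsum.symm).resolve_left hct0
      simp only [Matrix.mulVec, dotProduct, Pi.zero_apply]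
      exact this
    · have := congrFun ha r
      simp only [Matrix.mulVec, dotProduct, Matrix.updateRow_apply, hr, if_false,
        Pi.zero_apply] at this
      simp only [Matrix.mulVec, dotProduct, Pi.zero_apply]
      exact this


/-- The sum of the absolute values of the maximal minors. -/
noncomputable def minorSum (B : Matrix ι₁ ι ℤ) : ℕ := ∑ e : ι₁ ↪ ι, (minor B e).natAbs

theorem minorSum_pos (B : Matrix ι₁ ι ℤ) (hne : ∃ e : ι₁ ↪ ι, minor B e ≠ 0) : 0 < minorSum B := by
  obtain ⟨e, he⟩ := hne
  unfold minorSum
  exact lt_of_lt_of_le (Int.natAbs_pos.mpr he)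
    (Finset.single_le_sum (f := fun e => (minor B e).natAbs) (fun _ _ => Nat.zero_le _)
      (Finset.mem_univ e))

/-- **Primitive representative.**  An integer matrix with a non-vanishing maximal minor can be
replaced by an integer matrix `B₀` with proportional maximal minors of gcd `1` whose integral kernel
is contained in the kernel of `B`. -/
theorem exists_primitive (B : Matrix ι₁ ι ℤ) (hne : ∃ e : ι₁ ↪ ι, minor B e ≠ 0) :
    ∃ (B₀ : Matrix ι₁ ι ℤ) (num den : ℤ), num ≠ 0 ∧ den ≠ 0 ∧
      (∀ e : ι₁ ↪ ι, den * minor B₀ e = num * minor B e) ∧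
      (∀ a : ι → ℤ, B₀ *ᵥ a = 0 → B *ᵥ a = 0) ∧
      (Finset.univ : Finset (ι₁ ↪ ι)).gcd (minor B₀) = 1 := by
  classical
  induction hn : minorSum B using Nat.strong_induction_on generalizing B with
  | _ n ih =>
    by_cases hg : (Finset.univ : Finset (ι₁ ↪ ι)).gcd (minor B) = 1
    · exact ⟨B, 1, 1, one_ne_zero, one_ne_zero, fun e => rfl, fun a ha => ha, hg⟩
    · -- a prime dividing the gcd
      set g := (Finset.univ : Finset (ι₁ ↪ ι)).gcd (minor B) with hgdef
      have hg0 : g ≠ 0 := by
        intro h0
        obtain ⟨e, he⟩ := hne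
        exact he ((Finset.gcd_eq_zero_iff.mp h0) e (Finset.mem_univ e))
      have hgnat : g.natAbs ≠ 1 := by
        intro h1
        apply hg
        have hnn : 0 ≤ g := by
          rw [hgdef, ← Finset.normalize_gcd]
          exact Int.nonneg_of_normalize_eq_self (normalize_idem _)
        have : g = (g.natAbs : ℤ) := (Int.natAbs_of_nonneg hnn).symm
        rw [this, h1]; rfl
      obtain ⟨p, hp, hpg⟩ := Nat.exists_prime_and_dvd hgnat
      haveI : Fact p.Prime := ⟨hp⟩
      have hdvd : ∀ e : ι₁ ↪ ι, (p : ℤ) ∣ minor B e := by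
        intro e
        have h1 : (p : ℤ) ∣ g := Int.natCast_dvd.mpr hpg
        exact h1.trans (Finset.gcd_dvd (Finset.mem_univ e))
      obtain ⟨B₁, c, hc0, hclt, hmin, hker⟩ := exists_reduce_step B p hdvd
      have hne₁ : ∃ e : ι₁ ↪ ι, minor B₁ e ≠ 0 := by
        obtain ⟨e, he⟩ := hne
        refine ⟨e, fun h0 => ?_⟩
        have := hmin e
        rw [h0, mul_zero] at this
        exact (mul_ne_zero hc0 he) this.symm
      have hlt : minorSum B₁ < n := by
        have h1 : p * minorSum B₁ = c.natAbs * minorSum B := by
          unfold minorSum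
          rw [Finset.mul_sum, Finset.mul_sum]
          apply Finset.sum_congr rfl
          intro e _
          have := congrArg Int.natAbs (hmin e)
          rw [Int.natAbs_mul, Int.natAbs_mul, Int.natAbs_natCast] at this
          exact this
        have h2 : c.natAbs < p := by
          have : ((c.natAbs : ℕ) : ℤ) < p := by rw [Int.natCast_natAbs]; exact hclt
          exact_mod_cast this
        have h3 : 0 < minorSum B := minorSum_pos B hne
        rw [← hn]
        have h4 : p * minorSum B₁ < p * minorSum B := by
          rw [h1]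
          exact Nat.mul_lt_mul_of_pos_right h2 h3
        exact lt_of_mul_lt_mul_left h4 (Nat.zero_le _)
      obtain ⟨B₀, num, den, hnum, hden, hprop, hker₀, hgcd⟩ := ih (minorSum B₁) hlt B₁ hne₁ rfl
      refine ⟨B₀, num * c, den * p, mul_ne_zero hnum hc0,
        mul_ne_zero hden (by exact_mod_cast hp.ne_zero), ?_, fun a ha => hker a (hker₀ a ha), hgcd⟩
      intro e
      calc den * p * minor B₀ e = p * (den * minor B₀ e) := by ring
        _ = p * (num * minor B₁ e) := by rw [hprop e]
        _ = num * (p * minor B₁ e) := by ring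
        _ = num * (c * minor B e) := by rw [hmin e]
        _ = num * c * minor B e := by ring

end Reduce

end Fermat.Agent.S17.H980
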