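import Fermat.Agent.S17.H980.SiegelHeight

/-!
# Adapter for Siegel's lemma: from points over `Q̄` to a rational form (S17 / tower H, helper980)

Situation of route (H-D), positivity step: `v : Matrix ι₁ ι L` has the (linearly independent)
coordinate vectors `x(P_i)` of the points of a Galois-stable reduced divisor `D` as rows
(`L = Q̄`), and `Λ ⊆ ℚ^ι` is the space of rational linear forms vanishing at all `P_i`
(`Λ = L(m∞ - D)(ℚ)`), known to have dimension `≥ n - d` (Riemann–Roch + Galois descent).

* `exists_rat_matrix_of_annihilator` : there is a RATIONAL matrix `B` with `ker B = Λ` whose maximal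
  minors are a common non-zero multiple of the maximal minors of `v` (no Plücker duality needed).
* `exists_mem_logHeight_le` : hence `Λ` contains a non-zero integer vector `a` with
  `logHeight a ≤ (1/k) * absH (maximal minors of v) + log k`, `k = n - d`, for ANY function `absH`
  on tuples over `L` which is invariant under scaling and restricts to `Height.logHeight` on
  rational tuples (e.g. an absolute logarithmic height on `Q̄`).
-/

set_option autoImplicit false

open Matrix

namespace Fermat.Agent.S17.H980

section Adapter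

variable {ι₁ ι κ : Type*} [Fintype ι₁] [DecidableEq ι₁] [Fintype ι] [DecidableEq ι]
  [Fintype κ] [DecidableEq κ]
variable {K : Type*} [Field K]

omit [Fintype ι] [DecidableEq ι] in
/-- A matrix with a non-vanishing maximal minor has linearly independent rows. -/
theorem linearIndependent_row_of_det_submatrix_ne_zero (M : Matrix ι₁ ι K) (e : ι₁ ↪ ι)
    (h : (M.submatrix id e).det ≠ 0) : LinearIndependent K M.row := by
  have h1 : LinearIndependent K (M.submatrix id e).row :=
    Matrix.linearIndependent_rows_iff_isUnit.mpr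
      ((Matrix.isUnit_iff_isUnit_det _).mpr h.isUnit)
  have h2 : (M.submatrix id e).row = (LinearMap.funLeft K K e) ∘ M.row := by
    ext i j
    rfl
  rw [h2] at h1
  exact h1.of_comp _

omit [DecidableEq ι₁] [DecidableEq ι] in
/-- Rank–nullity for a matrix with independent rows. -/
theorem finrank_ker_mulVecLin_add (M : Matrix ι₁ ι K) (h : LinearIndependent K M.row) :
    Module.finrank K (LinearMap.ker M.mulVecLin) + Fintype.card ι₁ = Fintype.card ι := by
  have h1 := LinearMap.finrank_range_add_finrank_ker M.mulVecLin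
  have h2 : Module.finrank K (LinearMap.range M.mulVecLin) = Fintype.card ι₁ := h.rank_matrix
  rw [h2, Module.finrank_fintype_fun_eq_card] at h1
  omega

omit [DecidableEq ι₁] [DecidableEq ι] [DecidableEq κ] in
/-- A basis of the kernel of a matrix with independent rows, as a matrix. -/
theorem exists_kernel_matrix (A : Matrix κ ι K) (hA : LinearIndependent K A.row)
    (hcard : Fintype.card κ + Fintype.card ι₁ = Fintype.card ι) :
    ∃ B : Matrix ι₁ ι K, LinearIndependent K B.row ∧ ∀ i, A *ᵥ (B i) = 0 := by
  have h1 := finrank_ker_mulVecLin_add A hA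
  have h2 : Module.finrank K (LinearMap.ker A.mulVecLin) = Fintype.card ι₁ := by omega
  let b := (Module.finBasisOfFinrankEq K (LinearMap.ker A.mulVecLin) h2).reindex
    (Fintype.equivFinOfCardEq rfl).symm
  refine ⟨fun i => (b i : ι → K), ?_, ?_⟩
  · have : LinearIndependent K (fun i => (b i : ι → K)) :=
      b.linearIndependent.map' (LinearMap.ker A.mulVecLin).subtype
        (Submodule.ker_subtype _)
    exact this
  · intro i
    have := (b i).2
    rwa [LinearMap.mem_ker] at this

/-- **Rational model of the row space.**  `v` has independent rows over `L ⊇ ℚ`; `Λ ⊆ ℚ^ι` is a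
rational subspace of dimension `≥ n - d` annihilated by the rows of `v`.  Then there is a rational
matrix `B` of the same shape with `ker B = Λ` whose maximal minors are `c` times those of `v`. -/
theorem exists_rat_matrix_of_annihilator {L : Type*} [Field L] [Algebra ℚ L]
    (v : Matrix ι₁ ι L) (hv : LinearIndependent L v.row)
    (Λ : Submodule ℚ (ι → ℚ))
    (hΛ : ∀ a ∈ Λ, v *ᵥ (fun j => algebraMap ℚ L (a j)) = 0)
    (hdim : Fintype.card ι ≤ Module.finrank ℚ Λ + Fintype.card ι₁) :
    ∃ (B : Matrix ι₁ ι ℚ) (c : L), c ≠ 0 ∧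
      (∀ e : ι₁ ↪ ι, algebraMap ℚ L (minorQ B e) = c * (v.submatrix id e).det) ∧
      (∃ e : ι₁ ↪ ι, minorQ B e ≠ 0) ∧
      (∀ a : ι → ℚ, B *ᵥ a = 0 ↔ a ∈ Λ) := by
  classical
  set k := Module.finrank ℚ Λ with hk
  let bΛ := Module.finBasis ℚ Λ
  let A : Matrix (Fin k) ι ℚ := fun j => (bΛ j : ι → ℚ)
  have hA : LinearIndependent ℚ A.row :=
    bΛ.linearIndependent.map' Λ.subtype (Submodule.ker_subtype _)
  let AL : Matrix (Fin k) ι L := A.map (algebraMap ℚ L)
  obtain ⟨f, hf⟩ := exists_det_submatrix_ne_zero A hA
  have hALdet : (AL.submatrix id f).det ≠ 0 := by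
    have h1 : AL.submatrix id f = (algebraMap ℚ L).mapMatrix (A.submatrix id f) := rfl
    rw [h1, ← RingHom.map_det]
    exact (map_ne_zero (algebraMap ℚ L)).mpr hf
  have hAL : LinearIndependent L AL.row :=
    linearIndependent_row_of_det_submatrix_ne_zero AL f hALdet
  have hALv : ∀ j, v *ᵥ (AL j) = 0 := fun j => hΛ _ (bΛ j).2
  -- dimension count
  have hkd : k + Fintype.card ι₁ ≤ Fintype.card ι := by
    have h1 := finrank_ker_mulVecLin_add v hv
    have h2 : k ≤ Module.finrank L (LinearMap.ker v.mulVecLin) := by
      have hli : LinearIndependent L (fun j : Fin k =>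
          (⟨AL j, by rw [LinearMap.mem_ker]; exact hALv j⟩ : LinearMap.ker v.mulVecLin)) := by
        apply LinearIndependent.of_comp (LinearMap.ker v.mulVecLin).subtype
        exact hAL
      have := hli.fintype_card_le_finrank
      simpa using this
    omega
  have hkd' : k + Fintype.card ι₁ = Fintype.card ι := by omega
  obtain ⟨B, hB, hAB⟩ := exists_kernel_matrix (ι₁ := ι₁) A hA
    (by rw [Fintype.card_fin]; exact hkd')
  obtain ⟨e₀, he₀⟩ := exists_det_submatrix_ne_zero B hB
  -- `Λ ≤ ker B`
  have hΛspan : Λ = Submodule.span ℚ (Set.range A.row) := by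
    have h := congrArg (Submodule.map Λ.subtype) bΛ.span_eq
    rw [Submodule.map_span, Submodule.map_top, Submodule.range_subtype, ← Set.range_comp] at h
    exact h.symm
  have hdot : ∀ i j, B i ⬝ᵥ A j = 0 := by
    intro i j
    have := congrFun (hAB i) j
    rw [dotProduct_comm]
    exact this
  have hle : Λ ≤ LinearMap.ker B.mulVecLin := by
    rw [hΛspan, Submodule.span_le]
    rintro _ ⟨j, rfl⟩
    rw [SetLike.mem_coe, LinearMap.mem_ker]
    ext i
    exact hdot i j
  have hkerB : LinearMap.ker B.mulVecLin = Λ := by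
    symm
    apply Submodule.eq_of_le_of_finrank_eq hle
    have h1 := finrank_ker_mulVecLin_add B hB
    omega
  -- the rows of `v` span the kernel of `AL`
  let BL : Matrix ι₁ ι L := B.map (algebraMap ℚ L)
  have hvAL : ∀ i, AL *ᵥ (v i) = 0 := by
    intro i
    ext j
    have := congrFun (hALv j) i
    simp only [mulVec, Pi.zero_apply] at this ⊢
    rw [dotProduct_comm]
    exact this
  have hBLAL : ∀ i, AL *ᵥ (BL i) = 0 := by
    intro i
    ext j
    have := hdot i j
    rw [dotProduct_comm] at this
    have h2 := congrArg (algebraMap ℚ L) this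
    simp only [dotProduct, map_sum, map_mul, map_zero] at h2
    simpa [mulVec, dotProduct, AL, BL] using h2
  have hspan : Submodule.span L (Set.range v.row) = LinearMap.ker AL.mulVecLin := by
    apply Submodule.eq_of_le_of_finrank_eq
    · rw [Submodule.span_le]
      rintro _ ⟨i, rfl⟩
      rw [SetLike.mem_coe, LinearMap.mem_ker]
      exact hvAL i
    · have h1 := finrank_ker_mulVecLin_add AL hAL
      have h2 : Module.finrank L (Submodule.span L (Set.range v.row)) = Fintype.card ι₁ :=
        finrank_span_eq_card hv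
      simp only [Fintype.card_fin] at h1
      omega
  have hM : ∀ i, ∃ c : ι₁ → L, ∑ j, c j • v.row j = BL i := by
    intro i
    have h1 : BL i ∈ Submodule.span L (Set.range v.row) := by
      rw [hspan, LinearMap.mem_ker]
      exact hBLAL i
    exact (Submodule.mem_span_range_iff_exists_fun L).mp h1
  choose M hMspec using hM
  have hBLM : BL = (Matrix.of M) * v := by
    ext i l
    have := congrFun (hMspec i) l
    simp only [Finset.sum_apply, Pi.smul_apply, smul_eq_mul] at this
    rw [← this]
    simp [Matrix.mul_apply, Matrix.row]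
  have hminor : ∀ e : ι₁ ↪ ι,
      algebraMap ℚ L (minorQ B e) = (Matrix.of M).det * (v.submatrix id e).det := by
    intro e
    have h1 : algebraMap ℚ L (minorQ B e) = (BL.submatrix id e).det := by
      unfold minorQ
      rw [RingHom.map_det]
      rfl
    have h2 : BL.submatrix id e = (Matrix.of M) * (v.submatrix id e) := by
      rw [hBLM]
      ext i j
      simp [Matrix.mul_apply]
    rw [h1, h2, Matrix.det_mul]
  refine ⟨B, (Matrix.of M).det, ?_, hminor, ⟨e₀, he₀⟩, ?_⟩
  · intro h0
    have := hminor e₀
    rw [h0, zero_mul] at this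
    exact he₀ ((map_eq_zero (algebraMap ℚ L)).mp this)
  · intro a
    rw [← hkerB, LinearMap.mem_ker]
    rfl

/-- **Siegel's lemma for a Galois-stable point configuration**, weakest form of the height
hypothesis: `habs` says that `absH` of the Plücker vector of `v` may be computed from any rational
tuple proportional to it. -/
theorem exists_mem_logHeight_le_of_proportional {L : Type*} [Field L] [Algebra ℚ L]
    (v : Matrix ι₁ ι L) (hv : LinearIndependent L v.row)
    (Λ : Submodule ℚ (ι → ℚ))
    (hΛ : ∀ a ∈ Λ, v *ᵥ (fun j => algebraMap ℚ L (a j)) = 0)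
    (hdim : Fintype.card ι ≤ Module.finrank ℚ Λ + Fintype.card ι₁)
    (hcard : Fintype.card ι₁ < Fintype.card ι)
    (H : ℝ)
    (habs : ∀ (c : L) (w : (ι₁ ↪ ι) → ℚ), c ≠ 0 →
      (∀ e, algebraMap ℚ L (w e) = c * (v.submatrix id e).det) → Height.logHeight w = H) :
    ∃ a : ι → ℤ, a ≠ 0 ∧ (fun i => (a i : ℚ)) ∈ Λ ∧
      Height.logHeight (fun i => (a i : ℚ)) ≤
        (1 / ((Fintype.card ι - Fintype.card ι₁ : ℕ) : ℝ)) * H +
          Real.log ((Fintype.card ι - Fintype.card ι₁ : ℕ) : ℝ) := by
  obtain ⟨B, c, hc, hminor, hne, hker⟩ := exists_rat_matrix_of_annihilator v hv Λ hΛ hdim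
  obtain ⟨a, ha0, hBa, hle⟩ := exists_kernel_logHeight_le B hcard hne
  refine ⟨a, ha0, (hker _).mp hBa, ?_⟩
  rw [← habs c (minorQ B) hc hminor]
  exact hle

/-- **Siegel's lemma for a Galois-stable point configuration.**  `absH` is any function on tuples
over `L` (an absolute logarithmic height) which is invariant under scaling and restricts to
`Height.logHeight` on rational tuples.  Then the rational space `Λ` of linear forms vanishing on
the rows of `v` contains a non-zero integer vector of height at most
`(1/k) * absH (Plücker vector of v) + log k`, `k = n - d`. -/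
theorem exists_mem_logHeight_le {L : Type*} [Field L] [Algebra ℚ L]
    (v : Matrix ι₁ ι L) (hv : LinearIndependent L v.row)
    (Λ : Submodule ℚ (ι → ℚ))
    (hΛ : ∀ a ∈ Λ, v *ᵥ (fun j => algebraMap ℚ L (a j)) = 0)
    (hdim : Fintype.card ι ≤ Module.finrank ℚ Λ + Fintype.card ι₁)
    (hcard : Fintype.card ι₁ < Fintype.card ι)
    (absH : ((ι₁ ↪ ι) → L) → ℝ)
    (habs_smul : ∀ (c : L) (w : (ι₁ ↪ ι) → L), c ≠ 0 → absH (c • w) = absH w)
    (habs_rat : ∀ w : (ι₁ ↪ ι) → ℚ,
      absH (fun e => algebraMap ℚ L (w e)) = Height.logHeight w) :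
    ∃ a : ι → ℤ, a ≠ 0 ∧ (fun i => (a i : ℚ)) ∈ Λ ∧
      Height.logHeight (fun i => (a i : ℚ)) ≤
        (1 / ((Fintype.card ι - Fintype.card ι₁ : ℕ) : ℝ)) *
            absH (fun e => (v.submatrix id e).det) +
          Real.log ((Fintype.card ι - Fintype.card ι₁ : ℕ) : ℝ) := by
  apply exists_mem_logHeight_le_of_proportional v hv Λ hΛ hdim hcard
  intro c w hc hw
  rw [← habs_rat w, ← habs_smul c (fun e => (v.submatrix id e).det) hc]
  congr 1
  ext e
  rw [hw e]
  rfl

end Adapter

end Fermat.Agent.S17.H980
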