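import Fermat.Agent.Lib.RR.Duality
import Fermat.Agent.S17.H680.DescentRR
import Fermat.Agent.S17.H980.MinkAdapter
import Fermat.Agent.S17.H380.AbsBasic

/-!
# S17 / tower H, leaf POS-LIN: Siegel's lemma on `L(D₀ - D)` (helper980)

`[FF1 K F]`, `x₀, …, x_r` a `K`-basis of `L(D₀)`, `P₁, …, P_d` distinct places with
`deg D₀ - d > 2g - 2`, and `ξ i ∈ K^(r+1)` ANY representative of the point `φ(P_i) ∈ ℙ^r` of the
map `φ = (x₀ : … : x_r)`, characterised projectively:

  `⟨a, ξ i⟩ = 0 ↔ Σ aⱼ xⱼ ∈ L(D₀ - P_i)`.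

* `linearIndependent_points` : the `ξ i` are linearly independent (Riemann–Roch: the points of
  a reduced divisor of small degree impose independent conditions on `L(D₀)`).
* `dot_eq_zero_of_mem_L` : a form in `L(D₀ - Σ P_i)` vanishes at every `ξ i`.

Rational structure (`F = ℚ̄ · F₀`, Galois descent of helper680, `S17/H680/DescentRR.lean`):

* `finrank_rationalForms` : for a Galois-fixed basis `x` of `L(D₀)` and an invariant `E ≤ D₀`,
  `dim_ℚ {a ∈ ℚ^(r+1) : Σ aⱼ xⱼ ∈ L(E)} = ℓ(E)`.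
* `exists_fixed_form_logHeight_le` / `exists_fixed_form_absLogHeight_le` : **(MINK) of route
  (H-D)**: for `D = Σ P_i` invariant, reduced, there is a non-zero integral form `a` with
  `Σ aⱼ xⱼ ∈ L(D₀ - D)` and `logHeight a ≤ h(ξ₁ ∧ … ∧ ξ_d) / k + log k`, `k = r + 1 - d`.
-/

set_option autoImplicit false

noncomputable section

open AlgebraicCurve

namespace Fermat.Agent.S17.H980

open Fermat.Agent.Lib.RR

section Points

variable {K F : Type*} [Field K] [Field F] [Algebra K F]

/-- The reduced divisor `P₁ + … + P_d`. -/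
def sumPrim {d : ℕ} (P : Fin d → Place K F) : Divisor K F := ∑ i, prim (P i)

theorem prim_nonneg (v : Place K F) : 0 ≤ prim v := by
  rw [Finsupp.le_def]
  intro w
  by_cases h : w = v
  · subst h; simp
  · rw [prim_apply_of_ne h]; simp

theorem sumPrim_eq_add {d : ℕ} (P : Fin d → Place K F) (i : Fin d) :
    sumPrim P = prim (P i) + ∑ j ∈ Finset.univ.erase i, prim (P j) := by
  unfold sumPrim
  exact (Finset.add_sum_erase Finset.univ (fun j => prim (P j)) (Finset.mem_univ i)).symm

theorem prim_le_sumPrim {d : ℕ} (P : Fin d → Place K F) (i : Fin d) : prim (P i) ≤ sumPrim P := by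
  rw [sumPrim_eq_add P i]
  exact le_add_of_nonneg_right (Finset.sum_nonneg fun j _ => prim_nonneg _)

theorem prim_le_sum_erase {d : ℕ} (P : Fin d → Place K F) {i j : Fin d} (h : j ≠ i) :
    prim (P j) ≤ ∑ l ∈ Finset.univ.erase i, prim (P l) :=
  Finset.single_le_sum (f := fun l => prim (P l)) (fun _ _ => prim_nonneg _)
    (Finset.mem_erase.mpr ⟨h, Finset.mem_univ j⟩)

theorem sum_erase_apply_self {d : ℕ} (P : Fin d → Place K F) (hP : Function.Injective P)
    (i : Fin d) : (∑ l ∈ Finset.univ.erase i, prim (P l)) (P i) = 0 := by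
  rw [Finsupp.finsetSum_apply]
  apply Finset.sum_eq_zero
  intro l hl
  have hne : l ≠ i := (Finset.mem_erase.mp hl).1
  exact prim_apply_of_ne (fun h => hne (hP h).symm)

/-- `L(D₀ - D') ∩ L(D₀ - P) = L(D₀ - D' - P)` if `P ∉ supp D'`. -/
theorem mem_L_sub_add_prim {D₀ D' : Divisor K F} {v : Place K F} (hv : D' v = 0) {f : F}
    (h1 : f ∈ riemannRochSpace (D₀ - D')) (h2 : f ∈ riemannRochSpace (D₀ - prim v)) :
    f ∈ riemannRochSpace (D₀ - (prim v + D')) := by
  rw [mem_L_iff] at h1 h2 ⊢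
  intro w
  rcases h1 w with h0 | h1w
  · exact Or.inl h0
  rcases h2 w with h0 | h2w
  · exact Or.inl h0
  right
  by_cases hw : w = v
  · subst hw
    simp only [Finsupp.coe_sub, Finsupp.coe_add, Pi.sub_apply, Pi.add_apply, hv,
      prim_apply_self] at h1w h2w ⊢
    omega
  · simp only [Finsupp.coe_sub, Finsupp.coe_add, Pi.sub_apply, Pi.add_apply,
      prim_apply_of_ne hw] at h1w h2w ⊢
    omega

/-- A form in `L(D₀ - Σ P_i)` vanishes at all points `ξ i`. -/
theorem dot_eq_zero_of_mem_L {r d : ℕ} (D₀ : Divisor K F) (x : Fin (r + 1) → F)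
    (P : Fin d → Place K F) (ξ : Fin d → Fin (r + 1) → K)
    (hξ : ∀ (i : Fin d) (a : Fin (r + 1) → K),
      (∑ j, a j * ξ i j = 0 ↔ ∑ j, a j • x j ∈ riemannRochSpace (D₀ - prim (P i))))
    (a : Fin (r + 1) → K) (ha : ∑ j, a j • x j ∈ riemannRochSpace (D₀ - sumPrim P))
    (i : Fin d) : ∑ j, a j * ξ i j = 0 := by
  rw [hξ i a]
  exact L_mono (sub_le_sub_left (prim_le_sumPrim P i) D₀) ha

variable [FF1 K F]

theorem degree_sumPrim {d : ℕ} (P : Fin d → Place K F) : Divisor.degree (sumPrim P) = d := by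
  unfold sumPrim
  rw [map_sum]
  simp [degree_prim _ (deg_eq_one _)]

theorem degree_sum_erase {d : ℕ} (P : Fin d → Place K F) (i : Fin d) :
    Divisor.degree (∑ l ∈ Finset.univ.erase i, prim (P l)) = d - 1 := by
  have h := congrArg Divisor.degree (sumPrim_eq_add P i)
  rw [degree_sumPrim, map_add, degree_prim _ (deg_eq_one _)] at h
  omega

/-- **Independence of the points of a reduced divisor.** -/
theorem linearIndependent_points {r d : ℕ} (D₀ : Divisor K F) (x : Fin (r + 1) → F)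
    (hxspan : Submodule.span K (Set.range x) = riemannRochSpace D₀)
    (P : Fin d → Place K F) (hP : Function.Injective P)
    (hdeg : 2 * (genusFF K F : ℤ) - 2 < Divisor.degree D₀ - d)
    (ξ : Fin d → Fin (r + 1) → K)
    (hξ : ∀ (i : Fin d) (a : Fin (r + 1) → K),
      (∑ j, a j * ξ i j = 0 ↔ ∑ j, a j • x j ∈ riemannRochSpace (D₀ - prim (P i)))) :
    LinearIndependent K ξ := by
  classical
  -- for each `i` a form vanishing at the other points but not at `P i`
  have key : ∀ i : Fin d, ∃ a : Fin (r + 1) → K,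
      (∀ j, j ≠ i → ∑ l, a l * ξ j l = 0) ∧ ∑ l, a l * ξ i l ≠ 0 := by
    intro i
    set D' : Divisor K F := ∑ l ∈ Finset.univ.erase i, prim (P l) with hD'
    have hell1 : (ell (D₀ - D') : ℤ) = Divisor.degree (D₀ - D') + 1 - (genusFF K F : ℤ) :=
      ell_eq_of_degree_gt (by rw [map_sub, degree_sum_erase]; omega)
    have hell2 : (ell (D₀ - (prim (P i) + D')) : ℤ) =
        Divisor.degree (D₀ - (prim (P i) + D')) + 1 - (genusFF K F : ℤ) :=
      ell_eq_of_degree_gt (by
        rw [map_sub, map_add, degree_sum_erase, degree_prim _ (deg_eq_one _)]; omega)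
    have hlt : ell (D₀ - (prim (P i) + D')) < ell (D₀ - D') := by
      have h1 : Divisor.degree (D₀ - (prim (P i) + D')) < Divisor.degree (D₀ - D') := by
        rw [map_sub, map_sub, map_add, degree_prim _ (deg_eq_one _)]; omega
      omega
    have hle : riemannRochSpace (D₀ - (prim (P i) + D')) ≤ riemannRochSpace (D₀ - D') :=
      L_mono (sub_le_sub_left (le_add_of_nonneg_left (prim_nonneg _)) D₀)
    have hne : ∃ f ∈ riemannRochSpace (D₀ - D'), f ∉ riemannRochSpace (D₀ - (prim (P i) + D')) := by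
      by_contra hcon
      have hle' : riemannRochSpace (D₀ - D') ≤ riemannRochSpace (D₀ - (prim (P i) + D')) := by
        intro f hf
        by_contra hf'
        exact hcon ⟨f, hf, hf'⟩
      have := le_antisymm hle hle'
      unfold ell at hlt
      rw [this] at hlt
      exact lt_irrefl _ hlt
    obtain ⟨f, hf1, hf2⟩ := hne
    have hfD₀ : f ∈ Submodule.span K (Set.range x) := by
      rw [hxspan]
      exact L_mono (sub_le_self D₀ (Finset.sum_nonneg fun j _ => prim_nonneg _)) hf1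
    obtain ⟨a, ha⟩ := (Submodule.mem_span_range_iff_exists_fun K).mp hfD₀
    refine ⟨a, ?_, ?_⟩
    · intro j hj
      rw [hξ j a, ha]
      exact L_mono (sub_le_sub_left (prim_le_sum_erase P hj) D₀) hf1
    · intro h0
      rw [hξ i a, ha] at h0
      exact hf2 (mem_L_sub_add_prim (sum_erase_apply_self P hP i) hf1 h0)
  choose A hA1 hA2 using key
  rw [Fintype.linearIndependent_iff]
  intro c hc i
  have h1 : ∑ l, A i l * (∑ j, c j • ξ j) l = 0 := by rw [hc]; simp
  have h2 : ∑ l, A i l * (∑ j, c j • ξ j) l = ∑ j, c j * ∑ l, A i l * ξ j l := by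
    simp only [Finset.sum_apply, Pi.smul_apply, smul_eq_mul, Finset.mul_sum]
    rw [Finset.sum_comm]
    refine Finset.sum_congr rfl fun j _ => Finset.sum_congr rfl fun l _ => ?_
    ring
  rw [h2, Finset.sum_eq_single i (fun j _ hj => by rw [hA1 i j hj, mul_zero])
    (fun h => absurd (Finset.mem_univ _) h)] at h1
  rcases mul_eq_zero.mp h1 with h | h
  · exact h
  · exact absurd h (hA2 i)

end Points

/-! ## The rational structure -/

section Rational

open Fermat.Agent.S17.H77 Fermat.Agent.S17.H680 ModularCurve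

variable (F₀ : IntermediateField ℚ (LaurentSeries ℚ))

/-- The `ℚ`-space of rational coefficient vectors `a` with `Σ aⱼ xⱼ ∈ L(E)`. -/
def rationalForms {r : ℕ} (x : Fin (r + 1) → laurentBaseChange Qb F₀)
    (E : Divisor Qb (laurentBaseChange Qb F₀)) : Submodule ℚ (Fin (r + 1) → ℚ) :=
  ((riemannRochSpace E).restrictScalars ℚ).comap (Fintype.linearCombination ℚ x)

theorem mem_rationalForms {r : ℕ} (x : Fin (r + 1) → laurentBaseChange Qb F₀)
    (E : Divisor Qb (laurentBaseChange Qb F₀)) (a : Fin (r + 1) → ℚ) :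
    a ∈ rationalForms F₀ x E ↔ ∑ j, a j • x j ∈ riemannRochSpace E := by
  unfold rationalForms
  rw [Submodule.mem_comap, Submodule.restrictScalars_mem, Fintype.linearCombination_apply]

variable [FF1 Qb (laurentBaseChange Qb F₀)]

/-- A fixed `ℚ̄`-basis of `L(D₀)` is a `ℚ`-basis of the fixed part. -/
theorem span_rat_eq_fixedPart {r : ℕ} (x : Fin (r + 1) → laurentBaseChange Qb F₀)
    (hxfix : ∀ i, IsFixed F₀ (x i)) (hxli : LinearIndependent Qb x)
    (D₀ : Divisor Qb (laurentBaseChange Qb F₀)) (hD₀ : IsInvariant F₀ D₀)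
    (hxspan : Submodule.span Qb (Set.range x) = riemannRochSpace D₀) :
    Submodule.span ℚ (Set.range x) = fixedPart F₀ (riemannRochSpace D₀) := by
  classical
  obtain ⟨b, -, -, hbli, hbspan, hbspanQ⟩ := exists_fixed_basis_L F₀ hD₀
  have : Module.Finite ℚ (fixedPart F₀ (riemannRochSpace D₀)) := by
    rw [← hbspanQ]
    exact Module.Finite.span_of_finite ℚ (Set.finite_range b)
  apply Submodule.eq_of_le_of_finrank_eq
  · rw [Submodule.span_le]
    rintro _ ⟨i, rfl⟩
    refine ⟨?_, hxfix i⟩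
    rw [← hxspan]
    exact Submodule.subset_span ⟨i, rfl⟩
  · rw [finrank_fixedPart_L F₀ hD₀, finrank_span_eq_card (hxli.restrict_scalars' ℚ)]
    unfold ell
    rw [← hxspan, finrank_span_eq_card hxli]

/-- **Dimension of the space of rational forms**: `dim_ℚ {a ∈ ℚ^(r+1) : Σ aⱼ xⱼ ∈ L(E)} = ℓ(E)`
for a Galois-invariant divisor `E ≤ D₀`. -/
theorem finrank_rationalForms {r : ℕ} (x : Fin (r + 1) → laurentBaseChange Qb F₀)
    (hxfix : ∀ i, IsFixed F₀ (x i)) (hxli : LinearIndependent Qb x)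
    (D₀ E : Divisor Qb (laurentBaseChange Qb F₀)) (hD₀ : IsInvariant F₀ D₀)
    (hE : IsInvariant F₀ E) (hle : E ≤ D₀)
    (hxspan : Submodule.span Qb (Set.range x) = riemannRochSpace D₀) :
    Module.finrank ℚ (rationalForms F₀ x E) = ell E := by
  classical
  set φ := Fintype.linearCombination ℚ x with hφ
  have hinj : Function.Injective φ :=
    linearIndependent_iff_injective_fintypeLinearCombination.mp (hxli.restrict_scalars' ℚ)
  have hrange : LinearMap.range φ = fixedPart F₀ (riemannRochSpace D₀) := by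
    rw [hφ, Fintype.range_linearCombination]
    exact span_rat_eq_fixedPart F₀ x hxfix hxli D₀ hD₀ hxspan
  have hW : fixedPart F₀ (riemannRochSpace E) ≤ LinearMap.range φ := by
    rw [hrange]
    intro f hf
    exact ⟨L_mono hle hf.1, hf.2⟩
  have hcomap : rationalForms F₀ x E = (fixedPart F₀ (riemannRochSpace E)).comap φ := by
    ext a
    unfold rationalForms
    rw [Submodule.mem_comap, Submodule.mem_comap, Submodule.restrictScalars_mem, mem_fixedPart]
    constructor
    · intro h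
      refine ⟨h, ?_⟩
      have : φ a ∈ LinearMap.range φ := LinearMap.mem_range_self φ a
      rw [hrange] at this
      exact this.2
    · exact fun h => h.1
  rw [hcomap, ← finrank_fixedPart_L F₀ hE]
  have hmap : ((fixedPart F₀ (riemannRochSpace E)).comap φ).map φ =
      fixedPart F₀ (riemannRochSpace E) := Submodule.map_comap_eq_of_le hW
  have e := Submodule.equivMapOfInjective φ hinj ((fixedPart F₀ (riemannRochSpace E)).comap φ)
  rw [e.finrank_eq, hmap]

/-- **POS-LIN.**  `x` a Galois-fixed basis of `L(D₀)`, `D₀` invariant; `P₁, …, P_d` distinct places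
whose sum is Galois-invariant, `deg D₀ - d > 2g - 2`, `d < r + 1`; `ξ i` any representative of
the point `φ(P_i)`.  Then there is a non-zero INTEGRAL form `a` with `Σ aⱼ xⱼ ∈ L(D₀ - Σ P_i)` and
`logHeight a ≤ absH (ξ₁ ∧ … ∧ ξ_d) / k + log k`, `k = r + 1 - d = ℓ(D₀ - Σ P_i)`. -/
theorem exists_fixed_form_logHeight_le {r d : ℕ} (x : Fin (r + 1) → laurentBaseChange Qb F₀)
    (hxfix : ∀ i, IsFixed F₀ (x i)) (hxli : LinearIndependent Qb x)
    (D₀ : Divisor Qb (laurentBaseChange Qb F₀)) (hD₀ : IsInvariant F₀ D₀)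
    (hxspan : Submodule.span Qb (Set.range x) = riemannRochSpace D₀)
    (P : Fin d → Place Qb (laurentBaseChange Qb F₀)) (hP : Function.Injective P)
    (hPinv : IsInvariant F₀ (sumPrim P))
    (hdeg : 2 * (genusFF Qb (laurentBaseChange Qb F₀) : ℤ) - 2 < Divisor.degree D₀ - d)
    (hd : d < r + 1)
    (ξ : Fin d → Fin (r + 1) → Qb)
    (hξ : ∀ (i : Fin d) (a : Fin (r + 1) → Qb),
      (∑ j, a j * ξ i j = 0 ↔ ∑ j, a j • x j ∈ riemannRochSpace (D₀ - prim (P i))))
    (absH : ((Fin d ↪ Fin (r + 1)) → Qb) → ℝ)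
    (habs_smul : ∀ (c : Qb) (w : (Fin d ↪ Fin (r + 1)) → Qb), c ≠ 0 → absH (c • w) = absH w)
    (habs_rat : ∀ w : (Fin d ↪ Fin (r + 1)) → ℚ,
      absH (fun e => algebraMap ℚ Qb (w e)) = Height.logHeight w) :
    ∃ a : Fin (r + 1) → ℤ, a ≠ 0 ∧
      ∑ j, ((a j : ℤ) : ℚ) • x j ∈ riemannRochSpace (D₀ - sumPrim P) ∧
      Height.logHeight (fun j => ((a j : ℤ) : ℚ)) ≤
        (1 / ((r + 1 - d : ℕ) : ℝ)) * absH (fun e => ((Matrix.of ξ).submatrix id e).det) +
          Real.log ((r + 1 - d : ℕ) : ℝ) := by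
  classical
  have hE : IsInvariant F₀ (D₀ - sumPrim P) := by
    intro σ
    rw [smul_sub, hD₀ σ, hPinv σ]
  have hle : D₀ - sumPrim P ≤ D₀ :=
    sub_le_self D₀ (Finset.sum_nonneg fun j _ => prim_nonneg _)
  have hfin := finrank_rationalForms F₀ x hxfix hxli D₀ (D₀ - sumPrim P) hD₀ hE hle hxspan
  have hell : (ell (D₀ - sumPrim P) : ℤ) =
      Divisor.degree (D₀ - sumPrim P) + 1 - (genusFF Qb (laurentBaseChange Qb F₀) : ℤ) :=
    ell_eq_of_degree_gt (by rw [map_sub, degree_sumPrim]; exact hdeg)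
  have hell0 : (ell D₀ : ℤ) =
      Divisor.degree D₀ + 1 - (genusFF Qb (laurentBaseChange Qb F₀) : ℤ) :=
    ell_eq_of_degree_gt (by omega)
  have hr : ell D₀ = r + 1 := by
    unfold ell
    rw [← hxspan, finrank_span_eq_card hxli, Fintype.card_fin]
  have hv : LinearIndependent Qb (Matrix.of ξ).row :=
    linearIndependent_points D₀ x hxspan P hP hdeg ξ hξ
  have hΛ : ∀ a ∈ rationalForms F₀ x (D₀ - sumPrim P),
      (Matrix.of ξ).mulVec (fun j => algebraMap ℚ Qb (a j)) = 0 := by
    intro a ha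
    rw [mem_rationalForms] at ha
    ext i
    have h1 := dot_eq_zero_of_mem_L D₀ x P ξ hξ (fun j => algebraMap ℚ Qb (a j))
      (by simpa only [algebraMap_smul] using ha) i
    simp only [Matrix.mulVec, dotProduct, Matrix.of_apply, Pi.zero_apply]
    rw [← h1]
    exact Finset.sum_congr rfl fun j _ => mul_comm _ _
  have hdim : Fintype.card (Fin (r + 1)) ≤
      Module.finrank ℚ (rationalForms F₀ x (D₀ - sumPrim P)) + Fintype.card (Fin d) := by
    rw [hfin, Fintype.card_fin, Fintype.card_fin]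
    rw [map_sub, degree_sumPrim] at hell
    have : ((ell (D₀ - sumPrim P) : ℕ) : ℤ) + d = ((r + 1 : ℕ) : ℤ) := by
      rw [← hr]; omega
    omega
  obtain ⟨a, ha0, haΛ, hle'⟩ := exists_mem_logHeight_le (Matrix.of ξ) hv
    (rationalForms F₀ x (D₀ - sumPrim P)) hΛ hdim
    (by rw [Fintype.card_fin, Fintype.card_fin]; exact hd) absH habs_smul habs_rat
  refine ⟨a, ha0, (mem_rationalForms F₀ x _ _).mp haΛ, ?_⟩
  simpa only [Fintype.card_fin] using hle'

omit F₀ in
/-- Every element of `ℚ̄` is integral over `ℚ` (for the ambient `ℚ`-algebra structure). -/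
theorem isIntegral_Qb (c : Qb) : IsIntegral ℚ c :=
  Normal.isIntegral normal_Qb c

/-- **POS-LIN** for the absolute logarithmic height `H380.absLogHeight` on `ℚ̄`. -/
theorem exists_fixed_form_absLogHeight_le {r d : ℕ} (x : Fin (r + 1) → laurentBaseChange Qb F₀)
    (hxfix : ∀ i, IsFixed F₀ (x i)) (hxli : LinearIndependent Qb x)
    (D₀ : Divisor Qb (laurentBaseChange Qb F₀)) (hD₀ : IsInvariant F₀ D₀)
    (hxspan : Submodule.span Qb (Set.range x) = riemannRochSpace D₀)
    (P : Fin d → Place Qb (laurentBaseChange Qb F₀)) (hP : Function.Injective P)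
    (hPinv : IsInvariant F₀ (sumPrim P))
    (hdeg : 2 * (genusFF Qb (laurentBaseChange Qb F₀) : ℤ) - 2 < Divisor.degree D₀ - d)
    (hd : d < r + 1)
    (ξ : Fin d → Fin (r + 1) → Qb)
    (hξ : ∀ (i : Fin d) (a : Fin (r + 1) → Qb),
      (∑ j, a j * ξ i j = 0 ↔ ∑ j, a j • x j ∈ riemannRochSpace (D₀ - prim (P i)))) :
    ∃ a : Fin (r + 1) → ℤ, a ≠ 0 ∧
      ∑ j, ((a j : ℤ) : ℚ) • x j ∈ riemannRochSpace (D₀ - sumPrim P) ∧
      Height.logHeight (fun j => ((a j : ℤ) : ℚ)) ≤
        (1 / ((r + 1 - d : ℕ) : ℝ)) *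
            H380.absLogHeight (fun e : Fin d ↪ Fin (r + 1) =>
              ((Matrix.of ξ).submatrix id e).det) +
          Real.log ((r + 1 - d : ℕ) : ℝ) := by
  refine exists_fixed_form_logHeight_le F₀ x hxfix hxli D₀ hD₀ hxspan P hP hPinv hdeg hd ξ hξ
    H380.absLogHeight ?_ ?_
  · intro c w hc
    exact H380.absLogHeight_smul w (fun i => isIntegral_Qb _) hc (isIntegral_Qb _)
  · intro w
    have h := H380.absLogHeight_eq (algebraMap ℚ Qb) w
    rw [Module.finrank_self, Nat.cast_one, inv_one, one_mul] at h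
    exact h

end Rational

end Fermat.Agent.S17.H980
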