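import Mathlib

/-!
# Siegel's lemma in Plücker form (piece MINK of S17 / tower H, helper980)

Mathlib-only.  For an integer matrix `B` (`d × n`, `d < n`) with a non-vanishing maximal minor there
is a non-zero integer vector `a` in the kernel of `B` with

  `‖a‖_∞ ≤ k * H ^ (1 / k)`,   `k = n - d`,  `H = max |maximal minors of B|`.

The proof is the pigeonhole principle (no measure theory): choose the maximal minor `B₁` of largest
absolute value; the `(T + 1) ^ k` vectors of the box `{0, …, T} ^ k` (free coordinates) are mapped to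
the finite group `ℤ ^ d / B₁ ℤ ^ d` of order `|det B₁|`; Cramer's rule bounds the remaining
coordinates because all ratios of maximal minors are `≤ 1` in absolute value.

Main statements:
* `exists_small_kernel_block` : block form `[B₁ | B₂]`, `B₁` square.
* `exists_small_kernel` : general form, minors indexed by embeddings `Fin d ↪ ι`.
-/

set_option autoImplicit false

open Matrix

namespace Fermat.Agent.S17.H980

section Block

variable {ι₁ ι₂ : Type*} [Fintype ι₁] [DecidableEq ι₁] [Fintype ι₂] [DecidableEq ι₂]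

/-- The index of the lattice `B₁ ℤ^d` in `ℤ^d` is `|det B₁|`. -/
theorem card_quotient_range_mulVecLin (B₁ : Matrix ι₁ ι₁ ℤ) (hdet : B₁.det ≠ 0) :
    Nat.card ((ι₁ → ℤ) ⧸ LinearMap.range (Matrix.toLin' B₁)) = B₁.det.natAbs := by
  have hinj : Function.Injective (Matrix.toLin' B₁) := by
    rw [← LinearMap.ker_eq_bot, LinearMap.ker_eq_bot']
    intro v hv
    exact Matrix.eq_zero_of_mulVec_eq_zero hdet (by simpa using hv)
  let e : (ι₁ → ℤ) ≃ₗ[ℤ] LinearMap.range (Matrix.toLin' B₁) := LinearEquiv.ofInjective _ hinj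
  have h := Submodule.natAbs_det_equiv (LinearMap.range (Matrix.toLin' B₁)) e
  rw [← h]
  congr 1
  rw [← LinearMap.det_toLin' B₁]
  congr 1

/-- **Pigeonhole step.**  If `|det B₁| < (T + 1) ^ k` (`k = #ι₂`), there are integer vectors
`a₁`, `a₂ ≠ 0` with `B₁ a₁ + B₂ a₂ = 0` and `|a₂ i| ≤ T`. -/
theorem exists_small_kernel_pigeonhole (B₁ : Matrix ι₁ ι₁ ℤ) (B₂ : Matrix ι₁ ι₂ ℤ)
    (hdet : B₁.det ≠ 0) (T : ℕ) (hT : B₁.det.natAbs < (T + 1) ^ Fintype.card ι₂) :
    ∃ (a₁ : ι₁ → ℤ) (a₂ : ι₂ → ℤ), a₂ ≠ 0 ∧ B₁ *ᵥ a₁ + B₂ *ᵥ a₂ = 0 ∧ ∀ i, |a₂ i| ≤ T := by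
  classical
  set N := LinearMap.range (Matrix.toLin' B₁) with hN
  have hcard : Nat.card ((ι₁ → ℤ) ⧸ N) = B₁.det.natAbs := card_quotient_range_mulVecLin B₁ hdet
  have hfin : Finite ((ι₁ → ℤ) ⧸ N) := by
    apply Nat.finite_of_card_ne_zero
    rw [hcard]
    exact Int.natAbs_ne_zero.mpr hdet
  -- the box
  let f : (ι₂ → Fin (T + 1)) → (ι₁ → ℤ) ⧸ N := fun c =>
    Submodule.Quotient.mk (B₂ *ᵥ (fun i => ((c i : ℕ) : ℤ)))
  letI : Fintype ((ι₁ → ℤ) ⧸ N) := Fintype.ofFinite _
  have hlt : Fintype.card ((ι₁ → ℤ) ⧸ N) < Fintype.card (ι₂ → Fin (T + 1)) := by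
    rw [← Nat.card_eq_fintype_card, hcard, Fintype.card_fun, Fintype.card_fin]
    exact hT
  obtain ⟨c, c', hne, hcc'⟩ := Fintype.exists_ne_map_eq_of_card_lt f hlt
  -- the difference
  let a₂ : ι₂ → ℤ := fun i => ((c i : ℕ) : ℤ) - ((c' i : ℕ) : ℤ)
  have ha₂ : a₂ ≠ 0 := by
    intro h
    apply hne
    funext i
    have := congrFun h i
    simp only [a₂, Pi.zero_apply, sub_eq_zero] at this
    exact Fin.ext (by exact_mod_cast this)
  have hmem : B₂ *ᵥ a₂ ∈ N := by
    have h1 : B₂ *ᵥ a₂ = B₂ *ᵥ (fun i => ((c i : ℕ) : ℤ)) - B₂ *ᵥ (fun i => ((c' i : ℕ) : ℤ)) := by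
      rw [← Matrix.mulVec_sub]; rfl
    rw [h1, ← Submodule.Quotient.eq]
    exact hcc'
  obtain ⟨b, hb⟩ := hmem
  refine ⟨-b, a₂, ha₂, ?_, ?_⟩
  · rw [Matrix.mulVec_neg, ← hb]
    simp [Matrix.toLin'_apply]
  · intro i
    have h1 : ((c i : ℕ) : ℤ) ≤ T := by exact_mod_cast Nat.lt_succ_iff.mp (c i).2
    have h2 : ((c' i : ℕ) : ℤ) ≤ T := by exact_mod_cast Nat.lt_succ_iff.mp (c' i).2
    have h3 : (0 : ℤ) ≤ ((c i : ℕ) : ℤ) := Int.natCast_nonneg _
    have h4 : (0 : ℤ) ≤ ((c' i : ℕ) : ℤ) := Int.natCast_nonneg _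
    simp only [a₂]
    rw [abs_le]
    constructor <;> omega

omit [DecidableEq ι₂] in
/-- **Cramer step.**  If all the determinants obtained from `B₁` by replacing one column by a
column of `B₂` are bounded by `|det B₁|`, then `B₁ a₁ + B₂ a₂ = 0` and `|a₂ i| ≤ T` imply
`|a₁ j| ≤ k T`. -/
theorem abs_le_of_cramer (B₁ : Matrix ι₁ ι₁ ℤ) (B₂ : Matrix ι₁ ι₂ ℤ) (hdet : B₁.det ≠ 0)
    (hmax : ∀ (j : ι₁) (i : ι₂), |(B₁.updateCol j (fun r => B₂ r i)).det| ≤ |B₁.det|)
    (a₁ : ι₁ → ℤ) (a₂ : ι₂ → ℤ) (h : B₁ *ᵥ a₁ + B₂ *ᵥ a₂ = 0) (T : ℕ) (hT : ∀ i, |a₂ i| ≤ T)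
    (j : ι₁) : |a₁ j| ≤ Fintype.card ι₂ * T := by
  -- `det B₁ • a₁ = cramer B₁ (B₁ a₁) = - cramer B₁ (B₂ a₂)`
  have h1 : B₁ *ᵥ a₁ = -(B₂ *ᵥ a₂) := eq_neg_of_add_eq_zero_left h
  have h2 : B₁.det • a₁ = B₁.cramer (B₁ *ᵥ a₁) := by
    rw [Matrix.cramer_eq_adjugate_mulVec, Matrix.mulVec_mulVec, Matrix.adjugate_mul,
      Matrix.smul_mulVec, Matrix.one_mulVec]
  have h3 : B₂ *ᵥ a₂ = ∑ i, a₂ i • (fun r => B₂ r i) := by
    funext r
    simp [Matrix.mulVec, dotProduct, mul_comm]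
  have h4 : B₁.det * a₁ j = -∑ i, a₂ i * (B₁.updateCol j (fun r => B₂ r i)).det := by
    have := congrFun h2 j
    rw [h1, h3, map_neg, map_sum] at this
    simp only [Pi.smul_apply, smul_eq_mul, Pi.neg_apply, Finset.sum_apply, map_smul,
      Matrix.cramer_apply] at this
    exact this
  have h5 : |B₁.det| * |a₁ j| ≤ |B₁.det| * (Fintype.card ι₂ * T) := by
    rw [← abs_mul, h4, abs_neg]
    calc |∑ i, a₂ i * (B₁.updateCol j (fun r => B₂ r i)).det|
        ≤ ∑ i, |a₂ i * (B₁.updateCol j (fun r => B₂ r i)).det| := Finset.abs_sum_le_sum_abs _ _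
      _ ≤ ∑ _i : ι₂, (T : ℤ) * |B₁.det| := by
          apply Finset.sum_le_sum
          intro i _
          rw [abs_mul]
          exact mul_le_mul (hT i) (hmax j i) (abs_nonneg _) (by positivity)
      _ = |B₁.det| * (Fintype.card ι₂ * T) := by
          rw [Finset.sum_const, Finset.card_univ, nsmul_eq_mul]; ring
  exact le_of_mul_le_mul_left h5 (abs_pos.mpr hdet)

end Block

section General

variable {ι₁ ι : Type*} [Fintype ι₁] [DecidableEq ι₁] [Fintype ι] [DecidableEq ι]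

/-- The maximal minor of `B` attached to a choice `e` of columns. -/
def minor (B : Matrix ι₁ ι ℤ) (e : ι₁ ↪ ι) : ℤ := (B.submatrix id e).det

/-- Replacing the `j`-th chosen column by a column outside the range is again a choice of columns. -/
def updateEmb (e : ι₁ ↪ ι) (j : ι₁) (i : ι) (hi : i ∉ Set.range e) : ι₁ ↪ ι where
  toFun := Function.update e j i
  inj' := by
    intro x y hxy
    by_cases hx : x = j
    · by_cases hy : y = j
      · rw [hx, hy]
      · exfalso
        rw [hx, Function.update_self, Function.update_of_ne hy] at hxy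
        exact hi ⟨y, hxy.symm⟩
    · by_cases hy : y = j
      · exfalso
        rw [hy, Function.update_self, Function.update_of_ne hx] at hxy
        exact hi ⟨x, hxy⟩
      · rw [Function.update_of_ne hx, Function.update_of_ne hy] at hxy
        exact e.injective hxy

theorem minor_updateEmb (B : Matrix ι₁ ι ℤ) (e : ι₁ ↪ ι) (j : ι₁) (i : ι) (hi : i ∉ Set.range e) :
    minor B (updateEmb e j i hi) = ((B.submatrix id e).updateCol j (fun r => B r i)).det := by
  unfold minor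
  congr 1
  ext r c
  by_cases hc : c = j
  · subst hc
    simp [updateEmb, Matrix.updateCol_apply]
  · simp [updateEmb, Matrix.updateCol_apply, hc, Function.update_of_ne hc]

/-- **Siegel's lemma in Plücker form** (integer version).  Let `B` be an integer matrix with fewer
rows than columns, `k = #columns - #rows`, with a non-vanishing maximal minor, all maximal minors
bounded by `H`, and `H < (T + 1) ^ k`.  Then the kernel of `B` contains a non-zero integer vector
with all coordinates bounded by `k * T`. -/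
theorem exists_small_kernel (B : Matrix ι₁ ι ℤ) (hcard : Fintype.card ι₁ < Fintype.card ι)
    (hne : ∃ e : ι₁ ↪ ι, minor B e ≠ 0) (H : ℕ) (hH : ∀ e : ι₁ ↪ ι, |minor B e| ≤ H)
    (T : ℕ) (hT : H < (T + 1) ^ (Fintype.card ι - Fintype.card ι₁)) :
    ∃ a : ι → ℤ, a ≠ 0 ∧ B *ᵥ a = 0 ∧
      ∀ i, |a i| ≤ ((Fintype.card ι - Fintype.card ι₁ : ℕ) : ℤ) * T := by
  classical
  -- a column choice with maximal `|minor|`
  obtain ⟨e, -, hemax⟩ := Finset.exists_max_image (Finset.univ : Finset (ι₁ ↪ ι))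
    (fun e => |minor B e|) (by obtain ⟨e, _⟩ := hne; exact ⟨e, Finset.mem_univ _⟩)
  have he0 : minor B e ≠ 0 := by
    obtain ⟨e', he'⟩ := hne
    have h1 := hemax e' (Finset.mem_univ _)
    have h2 : 0 < |minor B e'| := abs_pos.mpr he'
    exact abs_pos.mp (lt_of_lt_of_le h2 h1)
  set k := Fintype.card ι - Fintype.card ι₁ with hk
  have hk1 : 1 ≤ k := by omega
  -- the complement of the chosen columns
  let ι₂ := {i : ι // i ∉ Set.range e}
  have hcard₂ : Fintype.card ι₂ = k := by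
    have h1 : Fintype.card ι₂ = Fintype.card ι - Fintype.card {i : ι // i ∈ Set.range e} :=
      Fintype.card_subtype_compl _
    have h2 : Fintype.card {i : ι // i ∈ Set.range e} = Fintype.card ι₁ := by
      rw [← Fintype.card_congr (Equiv.ofInjective e e.injective)]
    rw [h1, h2]
  let B₁ : Matrix ι₁ ι₁ ℤ := B.submatrix id e
  let B₂ : Matrix ι₁ ι₂ ℤ := B.submatrix id (fun i => i.1)
  have hdet : B₁.det ≠ 0 := he0
  have hT' : B₁.det.natAbs < (T + 1) ^ Fintype.card ι₂ := by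
    rw [hcard₂]
    refine lt_of_le_of_lt ?_ hT
    have := hH e
    have h3 : ((B₁.det.natAbs : ℕ) : ℤ) ≤ H := by rw [Int.natCast_natAbs]; exact this
    exact_mod_cast h3
  obtain ⟨a₁, a₂, ha₂, hker, hbd⟩ := exists_small_kernel_pigeonhole B₁ B₂ hdet T hT'
  have hmax : ∀ (j : ι₁) (i : ι₂), |(B₁.updateCol j (fun r => B₂ r i)).det| ≤ |B₁.det| := by
    intro j i
    have := hemax (updateEmb e j i.1 i.2) (Finset.mem_univ _)
    rw [minor_updateEmb] at this
    exact this
  have hbd₁ : ∀ j, |a₁ j| ≤ (k : ℤ) * T := by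
    intro j
    have := abs_le_of_cramer B₁ B₂ hdet hmax a₁ a₂ hker T hbd j
    rw [hcard₂] at this
    exact this
  -- glue `a₁` and `a₂`
  let σ : ι₁ ⊕ ι₂ ≃ ι :=
    (Equiv.sumCongr (Equiv.ofInjective e e.injective) (Equiv.refl _)).trans
      (Equiv.Set.sumCompl (Set.range e))
  have hσl : ∀ j, σ (Sum.inl j) = e j := fun j => rfl
  have hσr : ∀ i : ι₂, σ (Sum.inr i) = i.1 := fun i => rfl
  let a : ι → ℤ := fun i => Sum.elim a₁ a₂ (σ.symm i)
  have hal : ∀ j, a (e j) = a₁ j := by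
    intro j
    simp only [a]
    rw [← hσl j, Equiv.symm_apply_apply]; rfl
  have har : ∀ i : ι₂, a i.1 = a₂ i := by
    intro i
    simp only [a]
    rw [← hσr i, Equiv.symm_apply_apply]; rfl
  refine ⟨a, ?_, ?_, ?_⟩
  · intro h
    apply ha₂
    funext i
    rw [← har i, h]; rfl
  · funext r
    have h1 : (B *ᵥ a) r = ∑ s : ι₁ ⊕ ι₂, B r (σ s) * a (σ s) := by
      simp only [Matrix.mulVec, dotProduct]
      exact (Equiv.sum_comp σ (fun i => B r i * a i)).symm
    rw [h1, Fintype.sum_sum_type]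
    simp only [hσl, hσr, hal, har]
    have h2 := congrFun hker r
    simp only [Pi.add_apply, Matrix.mulVec, dotProduct, Pi.zero_apply] at h2
    exact h2
  · intro i
    obtain ⟨s, rfl⟩ := σ.surjective i
    rcases s with j | i'
    · rw [hσl, hal]; exact hbd₁ j
    · rw [hσr, har]
      refine le_trans (hbd i') ?_
      have : (1 : ℤ) ≤ k := by exact_mod_cast hk1
      nlinarith [Int.natCast_nonneg T]

end General

end Fermat.Agent.S17.H980
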