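import Fermat.Agent.S17.H980.SiegelMinors

/-!
# Siegel's lemma in Plücker form, height version (piece MINK of S17 / tower H, helper980)

For a rational matrix `B` (`d × n`, `d < n`, `k = n - d`) with a non-vanishing maximal minor there
is a non-zero integer vector `a` with `B a = 0` and

  `log ‖a‖_∞ ≤ (1 / k) * logHeight (maximal minors of B) + log k`.

`logHeight` is Mathlib's logarithmic Weil height of a tuple (`Height.logHeight`), here the height
of the Plücker point of the row space of `B`; the minors are indexed by `ι₁ ↪ ι`.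
-/

set_option autoImplicit false

open Matrix

namespace Fermat.Agent.S17.H980

section Height

variable {ι₁ ι : Type*} [Fintype ι₁] [DecidableEq ι₁] [Fintype ι] [DecidableEq ι]

/-- The maximal minors of a rational matrix (Plücker coordinates of its row space). -/
noncomputable def minorQ (B : Matrix ι₁ ι ℚ) (e : ι₁ ↪ ι) : ℚ := (B.submatrix id e).det

/-- Clearing denominators. -/
theorem exists_int_matrix (B : Matrix ι₁ ι ℚ) :
    ∃ (N : ℤ) (BZ : Matrix ι₁ ι ℤ), N ≠ 0 ∧ ∀ r i, ((BZ r i : ℤ) : ℚ) = N * B r i := by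
  classical
  obtain ⟨b, hb⟩ := IsLocalization.exist_integer_multiples (nonZeroDivisors ℤ)
    (Finset.univ : Finset (ι₁ × ι)) (fun x => B x.1 x.2)
  have hb' : ∀ r i, ∃ z : ℤ, (z : ℚ) = (b : ℤ) * B r i := by
    intro r i
    obtain ⟨z, hz⟩ := hb (r, i) (Finset.mem_univ _)
    refine ⟨z, ?_⟩
    have h1 : ((z : ℤ) : ℚ) = algebraMap ℤ ℚ z := rfl
    rw [h1, hz]
    simp [Algebra.smul_def]
  choose BZ hBZ using hb'
  exact ⟨b, Matrix.of BZ, nonZeroDivisors.coe_ne_zero b, fun r i => hBZ r i⟩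

theorem minor_cast_eq (B : Matrix ι₁ ι ℚ) (N : ℤ) (BZ : Matrix ι₁ ι ℤ)
    (h : ∀ r i, ((BZ r i : ℤ) : ℚ) = N * B r i) (e : ι₁ ↪ ι) :
    ((minor BZ e : ℤ) : ℚ) = (N : ℚ) ^ Fintype.card ι₁ * minorQ B e := by
  unfold minor minorQ
  rw [← Matrix.det_smul]
  have h1 : ((N : ℚ) • B.submatrix id e) = (BZ.submatrix id e).map (Int.castRingHom ℚ) := by
    ext r j
    simp [h r (e j)]
  rw [h1, ← RingHom.mapMatrix_apply, ← RingHom.map_det]
  rfl

theorem mulVec_cast_eq (B : Matrix ι₁ ι ℚ) (N : ℤ) (BZ : Matrix ι₁ ι ℤ)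
    (h : ∀ r i, ((BZ r i : ℤ) : ℚ) = N * B r i) (hN : N ≠ 0) (a : ι → ℤ) (ha : BZ *ᵥ a = 0) :
    B *ᵥ (fun i => (a i : ℚ)) = 0 := by
  funext r
  have h1 := congrFun ha r
  simp only [Matrix.mulVec, dotProduct, Pi.zero_apply] at h1 ⊢
  have h2 : ((∑ i, BZ r i * a i : ℤ) : ℚ) = N * ∑ i, B r i * (a i : ℚ) := by
    push_cast
    rw [Finset.mul_sum]
    apply Finset.sum_congr rfl
    intro i _
    rw [h r i]; ring
  rw [h1] at h2
  have h3 : (N : ℚ) ≠ 0 := by exact_mod_cast hN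
  have := mul_eq_zero.mp h2.symm
  rcases this with h4 | h4
  · exact absurd h4 h3
  · exact h4

/-- For a primitive integer matrix the height of the Plücker point is the logarithm of the
largest maximal minor. -/
theorem logHeight_minorQ_eq (B : Matrix ι₁ ι ℚ) (B₀ : Matrix ι₁ ι ℤ) (lam : ℚ) (hlam : lam ≠ 0)
    (hprop : ∀ e : ι₁ ↪ ι, ((minor B₀ e : ℤ) : ℚ) = lam * minorQ B e)
    (hne : Nonempty (ι₁ ↪ ι))
    (hgcd : (Finset.univ : Finset (ι₁ ↪ ι)).gcd (minor B₀) = 1) :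
    Height.logHeight (minorQ B) = Real.log ((⨆ e : ι₁ ↪ ι, |minor B₀ e| : ℤ) : ℝ) := by
  have h1 := Rat.logHeight_eq_max_abs_of_gcd_eq_one (x := minor B₀) hgcd
  rw [← h1]
  have h2 : ((↑) : ℤ → ℚ) ∘ minor B₀ = lam • minorQ B := by
    funext e
    simp [hprop e]
  rw [h2, Height.logHeight_smul_eq_logHeight _ hlam]

/-- **Siegel's lemma in Plücker form** (height version).  A rational matrix `B` with fewer rows
than columns and a non-vanishing maximal minor kills a non-zero integer vector `a` with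
`log |a i| ≤ (1 / k) * logHeight (maximal minors of B) + log k`, `k = #columns - #rows`. -/
theorem exists_small_kernel_logHeight (B : Matrix ι₁ ι ℚ)
    (hcard : Fintype.card ι₁ < Fintype.card ι) (hne : ∃ e : ι₁ ↪ ι, minorQ B e ≠ 0) :
    ∃ a : ι → ℤ, a ≠ 0 ∧ B *ᵥ (fun i => (a i : ℚ)) = 0 ∧
      ∀ i, Real.log |(a i : ℝ)| ≤
        (1 / ((Fintype.card ι - Fintype.card ι₁ : ℕ) : ℝ)) * Height.logHeight (minorQ B) +
          Real.log ((Fintype.card ι - Fintype.card ι₁ : ℕ) : ℝ) := by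
  classical
  set k := Fintype.card ι - Fintype.card ι₁ with hk
  have hk1 : 1 ≤ k := by omega
  have hkR : (1 : ℝ) ≤ (k : ℝ) := by exact_mod_cast hk1
  have hkpos : (0 : ℝ) < (k : ℝ) := lt_of_lt_of_le one_pos hkR
  obtain ⟨N, BZ, hN, hBZ⟩ := exists_int_matrix B
  have hNQ : (N : ℚ) ≠ 0 := by exact_mod_cast hN
  have hneZ : ∃ e : ι₁ ↪ ι, minor BZ e ≠ 0 := by
    obtain ⟨e, he⟩ := hne
    refine ⟨e, fun h0 => ?_⟩
    have := minor_cast_eq B N BZ hBZ e
    rw [h0, Int.cast_zero] at this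
    exact (mul_ne_zero (pow_ne_zero _ hNQ) he) this.symm
  obtain ⟨B₀, num, den, hnum, hden, hprop, hker, hgcd⟩ := exists_primitive BZ hneZ
  have hnumQ : (num : ℚ) ≠ 0 := by exact_mod_cast hnum
  have hdenQ : (den : ℚ) ≠ 0 := by exact_mod_cast hden
  have hprop' : ∀ e : ι₁ ↪ ι, ((minor B₀ e : ℤ) : ℚ) =
      ((num : ℚ) / den * (N : ℚ) ^ Fintype.card ι₁) * minorQ B e := by
    intro e
    have h1 : ((den * minor B₀ e : ℤ) : ℚ) = ((num * minor BZ e : ℤ) : ℚ) := by rw [hprop e]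
    push_cast at h1
    rw [minor_cast_eq B N BZ hBZ e] at h1
    field_simp
    linear_combination h1
  have hne₀ : ∃ e : ι₁ ↪ ι, minor B₀ e ≠ 0 := by
    obtain ⟨e, he⟩ := hne
    refine ⟨e, fun h0 => ?_⟩
    have := hprop' e
    rw [h0, Int.cast_zero] at this
    exact (mul_ne_zero (mul_ne_zero (div_ne_zero hnumQ hdenQ) (pow_ne_zero _ hNQ)) he) this.symm
  haveI : Nonempty (ι₁ ↪ ι) := ⟨hne₀.choose⟩
  have hheight := logHeight_minorQ_eq B B₀ _
    (mul_ne_zero (div_ne_zero hnumQ hdenQ) (pow_ne_zero _ hNQ)) hprop' ‹_› hgcd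
  -- the largest minor
  set Hz : ℤ := ⨆ e : ι₁ ↪ ι, |minor B₀ e| with hHz
  have hle : ∀ e : ι₁ ↪ ι, |minor B₀ e| ≤ Hz := fun e =>
    le_ciSup (Set.finite_range (fun e : ι₁ ↪ ι => |minor B₀ e|)).bddAbove e
  have hHz1 : 1 ≤ Hz := by
    obtain ⟨e, he⟩ := hne₀
    have : 1 ≤ |minor B₀ e| := Int.one_le_abs he
    exact le_trans this (hle e)
  set H : ℕ := Hz.toNat with hH
  have hHcast : (H : ℤ) = Hz := Int.toNat_of_nonneg (by omega)
  have hH1 : 1 ≤ H := by
    have : (1 : ℤ) ≤ (H : ℤ) := by rw [hHcast]; exact hHz1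
    exact_mod_cast this
  have hHR : (1 : ℝ) ≤ (H : ℝ) := by exact_mod_cast hH1
  have hHzR : ((Hz : ℤ) : ℝ) = (H : ℝ) := by
    rw [← hHcast]; simp
  -- the size of the box
  set x : ℝ := (H : ℝ) ^ ((1 : ℝ) / k) with hx
  have hx0 : 0 ≤ x := Real.rpow_nonneg (by positivity) _
  have hx1 : 1 ≤ x := Real.one_le_rpow hHR (by positivity)
  have hxk : x ^ k = (H : ℝ) := by
    rw [hx, ← Real.rpow_natCast, ← Real.rpow_mul (by positivity)]
    rw [one_div, inv_mul_cancel₀ (ne_of_gt hkpos), Real.rpow_one]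
  set T : ℕ := ⌊x⌋₊ with hT
  have hTle : (T : ℝ) ≤ x := Nat.floor_le hx0
  have hTlt : x < (T : ℝ) + 1 := Nat.lt_floor_add_one x
  have hT1 : 1 ≤ T := Nat.le_floor (by simpa using hx1)
  have hbox : H < (T + 1) ^ k := by
    have h1 : (H : ℝ) < ((T : ℝ) + 1) ^ k := by
      rw [← hxk]
      exact pow_lt_pow_left₀ hTlt hx0 (by omega)
    exact_mod_cast h1
  obtain ⟨a, ha0, hakerB₀, habd⟩ := exists_small_kernel B₀ hcard hne₀ H
    (fun e => by rw [hHcast]; exact hle e) T hbox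
  refine ⟨a, ha0, mulVec_cast_eq B N BZ hBZ hN a (hker a hakerB₀), ?_⟩
  intro i
  rw [hheight, hHzR]
  have hlogH : 0 ≤ Real.log (H : ℝ) := Real.log_nonneg hHR
  have hlogk : 0 ≤ Real.log (k : ℝ) := Real.log_nonneg hkR
  have hlogx : Real.log x = (1 / (k : ℝ)) * Real.log (H : ℝ) := by
    rw [hx, Real.log_rpow (by positivity)]
  by_cases hai : a i = 0
  · rw [hai]
    simp only [Int.cast_zero, abs_zero, Real.log_zero]
    positivity
  · have h1 : (1 : ℝ) ≤ |(a i : ℝ)| := by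
      have : (1 : ℤ) ≤ |a i| := Int.one_le_abs hai
      exact_mod_cast this
    have h2 : |(a i : ℝ)| ≤ (k : ℝ) * T := by
      have := habd i
      have h3 : ((|a i| : ℤ) : ℝ) ≤ (((k : ℕ) : ℤ) * (T : ℤ) : ℤ) := by exact_mod_cast this
      push_cast at h3
      exact h3
    have h4 : |(a i : ℝ)| ≤ (k : ℝ) * x := le_trans h2 (by gcongr)
    calc Real.log |(a i : ℝ)| ≤ Real.log ((k : ℝ) * x) :=
          Real.log_le_log (by linarith) h4
      _ = Real.log (k : ℝ) + Real.log x :=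
          Real.log_mul (ne_of_gt hkpos) (by linarith)
      _ = (1 / (k : ℝ)) * Real.log (H : ℝ) + Real.log (k : ℝ) := by rw [hlogx]; ring

omit [DecidableEq ι] in
/-- The height of a non-zero integer vector is at most the logarithm of its sup-norm. -/
theorem logHeight_intCast_le (a : ι → ℤ) (ha : a ≠ 0) (C : ℝ)
    (h : ∀ i, Real.log |(a i : ℝ)| ≤ C) :
    Height.logHeight (fun i => (a i : ℚ)) ≤ C := by
  classical
  obtain ⟨i₀, hi₀⟩ : ∃ i, a i ≠ 0 := by
    by_contra hcon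
    exact ha (funext fun i => not_not.mp fun hi => hcon ⟨i, hi⟩)
  haveI : Nonempty ι := ⟨i₀⟩
  obtain ⟨a', ha', hgcd⟩ := Finset.extract_gcd a (Finset.univ_nonempty (α := ι))
  set g := (Finset.univ : Finset ι).gcd a with hg
  have hg0 : g ≠ 0 := by
    intro h0
    exact hi₀ ((Finset.gcd_eq_zero_iff.mp h0) i₀ (Finset.mem_univ _))
  have hgQ : (g : ℚ) ≠ 0 := by exact_mod_cast hg0
  have h1 : (fun i => (a i : ℚ)) = (g : ℚ) • (((↑) : ℤ → ℚ) ∘ a') := by
    funext i
    simp [ha' i (Finset.mem_univ _)]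
  rw [h1, Height.logHeight_smul_eq_logHeight _ hgQ, Rat.logHeight_eq_max_abs_of_gcd_eq_one hgcd]
  obtain ⟨j, hj⟩ := exists_eq_ciSup_of_finite (f := fun i => |a' i|)
  rw [← hj]
  have haj : a j = g * a' j := ha' j (Finset.mem_univ _)
  by_cases h0 : a' j = 0
  · rw [h0]
    simp only [abs_zero, Int.cast_zero, Real.log_zero]
    have := h j
    rw [haj, h0] at this
    simpa using this
  · refine le_trans ?_ (h j)
    have h2 : (1 : ℤ) ≤ |a' j| := Int.one_le_abs h0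
    have h3 : (1 : ℤ) ≤ |g| := Int.one_le_abs hg0
    have h4 : |a' j| ≤ |a j| := by
      rw [haj, abs_mul]
      nlinarith [abs_nonneg (a' j)]
    have h5 : ((|a' j| : ℤ) : ℝ) ≤ |(a j : ℝ)| := by
      have : ((|a' j| : ℤ) : ℝ) ≤ ((|a j| : ℤ) : ℝ) := by exact_mod_cast h4
      simpa using this
    apply Real.log_le_log _ h5
    have : (0 : ℤ) < |a' j| := by omega
    exact_mod_cast this

/-- **Siegel's lemma in Plücker form** (projective version): the kernel of `B` contains a non-zero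
integer vector `a` with `logHeight a ≤ (1 / k) * logHeight (Plücker point of B) + log k`. -/
theorem exists_kernel_logHeight_le (B : Matrix ι₁ ι ℚ)
    (hcard : Fintype.card ι₁ < Fintype.card ι) (hne : ∃ e : ι₁ ↪ ι, minorQ B e ≠ 0) :
    ∃ a : ι → ℤ, a ≠ 0 ∧ B *ᵥ (fun i => (a i : ℚ)) = 0 ∧
      Height.logHeight (fun i => (a i : ℚ)) ≤
        (1 / ((Fintype.card ι - Fintype.card ι₁ : ℕ) : ℝ)) * Height.logHeight (minorQ B) +
          Real.log ((Fintype.card ι - Fintype.card ι₁ : ℕ) : ℝ) := by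
  obtain ⟨a, ha0, hker, hbd⟩ := exists_small_kernel_logHeight B hcard hne
  exact ⟨a, ha0, hker, logHeight_intCast_le a ha0 _ hbd⟩

end Height

end Fermat.Agent.S17.H980
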