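import Fermat.Agent.S17.H980.WallCore

/-!
# S17 / tower H, WALL assembly: `(ADJ)` and `(E3)` from the cores (helper980)

* `adj_of_cores` : `HContract.ADJStatement E E` from CORE-UP / CORE-LOW (`k = m`, `ρ = Unit`),
  G-RANK-JET, G-ENUM, G-PT, A6, A7;
* `e3_of_cores` : `HContract.E3Statement E E` from CORE-UP / CORE-LOW, G-RANK, G-ENUM, G-PT, A6, A7;
* `adj`, `e3` : the same with the cores replaced by their proofs (`H980.core_up`, `core_low`).
-/

set_option autoImplicit false

noncomputable section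

namespace Fermat.Agent.S17.H980

open AlgebraicCurve MvPolynomial
open Fermat.Agent.Lib.RR Fermat.Agent.S17.HWall Fermat.Agent.S17.H710
open Fermat.Agent.S17.HContract Fermat.Agent.S17.Wall

section Tools

variable {K F : Type*} [Field K] [CharZero K] [Field F] [Algebra K F]

omit [Field F] [Algebra K F] in
/-- the height of a tuple indexed by a subsingleton vanishes -/
theorem ht_eq_zero_of_subsingleton {ι : Type*} [Finite ι] [Subsingleton ι] (x : ι → K) :
    ht x = 0 := by
  unfold ht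
  by_cases hx : ∀ i, IsIntegral ℚ (x i)
  · have := H380.tupleField_numberField x hx
    rw [H380.absLogHeight_def x hx, Height.logHeight_eq_zero_of_subsingleton, mul_zero]
  · exact H380.absLogHeight_of_not_isIntegral x hx

omit [Field F] [Algebra K F] in
theorem ht_unit_prod (n : ℕ) (a : Fin n → K) :
    ht (fun q : Unit × Fin n => a q.2) = ht a :=
  H380.absLogHeight_comp_equiv (Equiv.punitProd (Fin n)) a

omit [Field F] [Algebra K F] in
theorem ht_wedge_comm {n : ℕ} (hK : ∀ a : K, IsIntegral ℚ a) (y z : Fin n → K) :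
    ht (wedge y z) = ht (wedge z y) := by
  have h : wedge y z = (-1 : K) • wedge z y := by
    funext p
    simp only [wedge, Pi.smul_apply, smul_eq_mul]
    ring
  rw [h]
  exact H380.absLogHeight_smul _ (fun _ => hK _) (by norm_num) (hK _)

variable [FF1 K F]

omit [CharZero K] [FF1 K F] in
/-- evaluation of `D ↦ Σ_A D(A) f(A)` on a sum of prime divisors -/
theorem sum_sum_prim {ι : Type*} (s : Finset ι) (A : ι → Place K F) (f : Place K F → ℝ) :
    (∑ i ∈ s, prim (A i)).sum (fun B n => (n : ℝ) * f B) = ∑ i ∈ s, f (A i) := by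
  rw [← Finsupp.sum_finsetSum_index (h := fun B (n : ℤ) => (n : ℝ) * f B)
    (fun B => by simp) (fun B b₁ b₂ => by push_cast; ring)]
  refine Finset.sum_congr rfl fun i _ => ?_
  unfold prim
  rw [Finsupp.sum_single_index (by simp)]
  simp

theorem pairPt_sum_prim {ι : Type*} (E : EmbData K F) (s : Finset ι) (A : ι → Place K F)
    (P : Place K F) : pairPt E (∑ i ∈ s, prim (A i)) P = ∑ i ∈ s, hD E (A i) P := by
  unfold pairPt
  exact sum_sum_prim s A fun B => hD E B P

omit [CharZero K] [FF1 K F] in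
open Classical in
/-- multiplicity of `P` in `Σ prim (A i)` -/
theorem sum_prim_apply {m : ℕ} (A : Fin m → Place K F) (P : Place K F) :
    (∑ i, prim (A i)) P = ((Finset.univ.filter fun i => A i = P).card : ℤ) := by
  classical
  rw [Finsupp.finsetSum_apply]
  have : ∀ i, prim (A i) P = if A i = P then (1 : ℤ) else 0 := by
    intro i
    by_cases h : A i = P
    · rw [if_pos h, h]; exact prim_apply_self P
    · rw [if_neg h]; exact prim_apply_of_ne (fun hh => h hh.symm)
  simp only [this]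
  rw [Finset.sum_ite, Finset.sum_const_zero, add_zero, Finset.sum_const]
  simp

omit [CharZero K] [FF1 K F] in
/-- a place of multiplicity one occurs exactly once in an enumeration -/
theorem exists_unique_index {m : ℕ} (A : Fin m → Place K F) (P : Place K F)
    (h1 : (∑ i, prim (A i)) P = 1) : ∃ i₀, A i₀ = P ∧ ∀ i, i ≠ i₀ → A i ≠ P := by
  classical
  rw [sum_prim_apply] at h1
  have hc : (Finset.univ.filter fun i => A i = P).card = 1 := by exact_mod_cast h1
  obtain ⟨i₀, hi₀⟩ := Finset.card_eq_one.mp hc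
  have hmem : ∀ i, A i = P ↔ i = i₀ := by
    intro i
    have := Finset.ext_iff.mp hi₀ i
    simpa using this
  exact ⟨i₀, (hmem i₀).mpr rfl, fun i hne h => hne ((hmem i).mp h)⟩

omit [CharZero K] [FF1 K F] in
/-- no index if the multiplicity vanishes -/
theorem forall_ne_of_apply_eq_zero {m : ℕ} (A : Fin m → Place K F) (P : Place K F)
    (h0 : (∑ i, prim (A i)) P = 0) : ∀ i, A i ≠ P := by
  classical
  rw [sum_prim_apply] at h0
  have hc : (Finset.univ.filter fun i => A i = P).card = 0 := by exact_mod_cast h0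
  intro i hi
  have : i ∈ Finset.univ.filter fun i => A i = P := by simp [hi]
  rw [Finset.card_eq_zero.mp hc] at this
  exact absurd this (Finset.notMem_empty i)

omit [CharZero K] [FF1 K F] in
theorem erase_sum_prim {m : ℕ} (A : Fin m → Place K F) (P : Place K F) (i₀ : Fin m)
    (hi₀ : A i₀ = P) (hne : ∀ i, i ≠ i₀ → A i ≠ P) :
    (∑ i, prim (A i)).erase P = ∑ i ∈ Finset.univ.erase i₀, prim (A i) := by
  classical
  ext v
  by_cases hv : v = P
  · subst hv
    rw [Finsupp.erase_same, Finsupp.finsetSum_apply]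
    symm
    apply Finset.sum_eq_zero
    intro i hi
    exact prim_apply_of_ne (fun h => hne i (Finset.mem_erase.mp hi).1 h.symm)
  · rw [Finsupp.erase_ne hv, ← Finset.add_sum_erase _ _ (Finset.mem_univ i₀),
      Finsupp.add_apply, hi₀, prim_apply_of_ne hv, zero_add]

end Tools

variable {K F : Type*} [Field K] [CharZero K] [Field F] [Algebra K F] [FF1 K F]

omit [CharZero K] [FF1 K F] [Field F] [Algebra K F] in
/-- a Segre product of non-zero vectors is non-zero -/
theorem betaCol_ne_zero {n d : ℕ} (u z : Fin d → Fin n → K) (h : ∀ i, wedge (u i) (z i) ≠ 0) :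
    betaCol u z ≠ 0 := by
  have hex : ∀ i, ∃ p, wedge (u i) (z i) p ≠ 0 := by
    intro i
    by_contra hcon
    apply h i
    funext p
    by_contra hp
    exact hcon ⟨p, hp⟩
  choose s hs using hex
  intro h0
  have := congrFun h0 s
  unfold betaCol at this
  simp only [Pi.zero_apply] at this
  exact absurd this (Finset.prod_ne_zero_iff.mpr fun i _ => hs i)

omit [CharZero K] [FF1 K F] [Field F] [Algebra K F] in
/-- `v ⊗ z^{⊗e} ≠ 0` -/
theorem wColLike_ne_zero {n e : ℕ} (c : K) (z : Fin n → K) (hc : c ≠ 0) (hz : z ≠ 0) :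
    (fun t : Unit × (Fin e → Fin n) => c * ∏ k, z (t.2 k)) ≠ 0 := by
  obtain ⟨j, hj⟩ : ∃ j, z j ≠ 0 := by
    by_contra hcon
    apply hz
    funext j
    by_contra hj
    exact hcon ⟨j, hj⟩
  intro h0
  have := congrFun h0 ((), fun _ => j)
  simp only [Pi.zero_apply] at this
  rcases mul_eq_zero.mp this with h | h
  · exact hc h
  · exact absurd h (Finset.prod_ne_zero_iff.mpr fun _ _ => hj)

/-- **(E3)** from the leaves. -/
theorem e3 (E : EmbData K F)
    (a1 : CramerHeightStatement K) (a2 : MinorStatement K) (a3 : MultislotStatement K)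
    (a4 : HtBetaMatStatement K) (a5 : HtWMatStatement K) (a6 : HtBetaColStatement K)
    (a7 : HtWColStatement K) (a8 : MinorPolyBetaStatement K) (a9 : MinorPolyAStatement K)
    (hpt : PtStatement E) (hcone : ConeStatement E) (henum : EnumStatement K F)
    (hinf : InfStatement K F) (hrank : RankStatement E)
    (hminorA : MinorAStatement E) (hminorB : MinorBetaStatement E) :
    E3Statement E E := by
  classical
  have hm1 : 1 ≤ E.m := by
    have := E.hm
    omega
  obtain ⟨Cu, Lu, Qu, -, -, hup⟩ :=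
    core_up E a1 a2 a3 a4 a5 a8 hpt hcone hinf hminorB E.m hm1 Unit
  obtain ⟨Cl, Ll, Ql, -, -, hlow⟩ := core_low E a1 a2 a3 a4 a5 a9 hinf hminorA
  refine ⟨max Cu Cl, ?_⟩
  intro a P ha hP
  obtain ⟨A, hA⟩ := henum (E.Z a) (E.Z_nonneg a) E.m (E.degree_Z ha)
  have hZ0 : (0 : ℤ) ≤ E.Z a P := by
    have := Finsupp.le_def.mp (E.Z_nonneg a) P
    simpa using this
  have hZP : E.Z a P = 0 := by
    by_contra h
    have hpos : 0 < E.Z a P := lt_of_le_of_ne hZ0 (Ne.symm h)
    exact hP ((E.pt_spec P a ha).mpr hpos)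
  have hne : ∀ i, A i ≠ P := forall_ne_of_apply_eq_zero A P (by rw [← hA]; exact hZP)
  have hwne : ∀ i, wedge (E.pt (A i)) (E.pt P) ≠ 0 := fun i => hpt.2.2.1 (A i) P (hne i)
  set ψu := betaCol (fun i => E.pt (A i)) (fun _ => E.pt P) with hψu
  set ψw := wCol (e := E.m - 1) (fun _ : Unit => a) (E.pt P) with hψw
  have hψw_eq : ψw = fun t : Unit × (Fin (E.m - 1) → Fin (E.r + 1)) =>
      (fun _ : Unit => dot a (E.pt P)) t.1 * ∏ k, E.pt P (t.2 k) := rfl
  have hψw0 : ψw ≠ 0 := by
    rw [hψw_eq]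
    exact wColLike_ne_zero (dot a (E.pt P)) (E.pt P) hP (hpt.1 P)
  have hψu0 : ψu ≠ 0 := betaCol_ne_zero _ _ hwne
  have hhtw : ht ψw = ((E.m - 1 : ℕ) : ℝ) * ht (E.pt P) := by
    have h := a7 (E.r + 1) (E.m - 1) Unit (fun _ : Unit => dot a (E.pt P)) (E.pt P)
      (fun h0 => hP (congrFun h0 ())) (hpt.1 P)
    rw [ht_eq_zero_of_subsingleton (fun _ : Unit => dot a (E.pt P)), zero_add] at h
    rw [hψw_eq]
    exact h
  have hhtu : ht ψu = ∑ i, ht (wedge (E.pt (A i)) (E.pt P)) :=
    a6 (E.r + 1) E.m (fun i => E.pt (A i)) (fun _ => E.pt P) hwne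
  have hle : ∀ r : Unit, (fun _ : Unit => a) r ≠ 0 → ∑ l, prim (A l) ≤ E.Z ((fun _ : Unit => a) r) :=
    fun _ _ => by rw [← hA]
  have hrk_u := hrank E.m A Unit (fun _ => a) hm1 hle (Fin Lu) (fun t => E.pt (Qu t)) (E.pt P)
    (fun j => hpt.2.1 _) (hpt.2.1 P)
  have hrk_l := hrank E.m A Unit (fun _ => a) hm1 hle (Fin Ll) (fun t => E.pt (Ql t)) (E.pt P)
    (fun j => hpt.2.1 _) (hpt.2.1 P)
  have h_up := hup A (fun _ => a) ψu ψw hrk_u hψw0
  have h_low := hlow a A ψu ψw ha hrk_l hψu0
  rw [ht_unit_prod] at h_up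
  have hpair : pairPt E (E.Z a) P = ∑ i, hD E (A i) P := by
    rw [hA]
    exact pairPt_sum_prim E Finset.univ A P
  have hsum : ∑ i, hD E (A i) P = ∑ i, ht (E.pt (A i)) + (E.m : ℝ) * ht (E.pt P) - ht ψu := by
    unfold hD
    rw [Finset.sum_sub_distrib, Finset.sum_add_distrib, Finset.sum_const, Finset.card_univ,
      Fintype.card_fin, hhtu, nsmul_eq_mul]
  have hcast : ((E.m - 1 : ℕ) : ℝ) = (E.m : ℝ) - 1 := by
    rw [Nat.cast_sub hm1, Nat.cast_one]
  rw [hpair, hsum, abs_le]
  rw [hhtw, hcast] at h_up h_low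
  constructor
  · have := le_max_right Cu Cl
    linarith
  · have := le_max_left Cu Cl
    linarith

/-- **(ADJ)** from the leaves. -/
theorem adj (E : EmbData K F)
    (a1 : CramerHeightStatement K) (a2 : MinorStatement K) (a3 : MultislotStatement K)
    (a4 : HtBetaMatStatement K) (a5 : HtWMatStatement K) (a6 : HtBetaColStatement K)
    (a7 : HtWColStatement K) (a8 : MinorPolyBetaStatement K) (a9 : MinorPolyAStatement K)
    (hpt : PtStatement E) (hcone : ConeStatement E) (henum : EnumStatement K F)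
    (hinf : InfStatement K F) (hrankJet : RankJetStatement E)
    (hminorA : MinorAStatement E) (hminorB : MinorBetaStatement E) :
    ADJStatement E E := by
  classical
  have hm1 : 1 ≤ E.m := by
    have := E.hm
    omega
  obtain ⟨Cu, Lu, Qu, -, -, hup⟩ :=
    core_up E a1 a2 a3 a4 a5 a8 hpt hcone hinf hminorB E.m hm1 Unit
  obtain ⟨Cl, Ll, Ql, -, -, hlow⟩ := core_low E a1 a2 a3 a4 a5 a9 hinf hminorA
  refine ⟨max Cu Cl, ?_⟩
  intro a P ha hP1
  obtain ⟨A, hA⟩ := henum (E.Z a) (E.Z_nonneg a) E.m (E.degree_Z ha)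
  obtain ⟨i₀, hi₀, hne⟩ := exists_unique_index A P (by rw [← hA]; exact hP1)
  have hdot0 : dot a (E.pt P) = 0 := by
    apply (E.pt_spec P a ha).mpr
    have : hypDiv E.vinf E.m E.x a P = 1 := hP1
    rw [this]
    exact one_pos
  have hdot1 : dot a (E.tn P) ≠ 0 := by
    intro h
    have h2 := (E.tn_spec P a ha).mp ⟨hdot0, h⟩
    have : hypDiv E.vinf E.m E.x a P = 1 := hP1
    rw [this] at h2
    exact absurd h2 (by norm_num)
  set zz : Fin E.m → Fin (E.r + 1) → K := fun i => if i = i₀ then E.tn P else E.pt P with hzz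
  have hwne : ∀ i, wedge (E.pt (A i)) (zz i) ≠ 0 := by
    intro i
    by_cases h : i = i₀
    · subst h
      simp only [hzz, if_pos rfl]
      rw [hi₀]
      exact hpt.2.2.2 P
    · simp only [hzz, if_neg h]
      exact hpt.2.2.1 (A i) P (hne i h)
  set ψu := betaJet (fun i => E.pt (A i)) (E.pt P) (E.tn P) with hψu
  have hψu_eq : ψu = betaCol (fun i => E.pt (A i)) zz := by
    funext s
    rw [hψu]
    unfold betaJet betaCol
    rw [Finset.sum_eq_single i₀]
    · rw [← Finset.mul_prod_erase _ _ (Finset.mem_univ i₀)]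
      simp only [hzz, if_pos]
      congr 1
      refine Finset.prod_congr rfl fun i hi => ?_
      rw [if_neg (Finset.mem_erase.mp hi).1]
    · intro l _ hl
      have h0 : ∏ i ∈ Finset.univ.erase l, wedge (E.pt (A i)) (E.pt P) (s i) = 0 := by
        apply Finset.prod_eq_zero (Finset.mem_erase.mpr ⟨Ne.symm hl, Finset.mem_univ i₀⟩)
        rw [hi₀]
        simp only [wedge]
        ring
      rw [h0, mul_zero]
    · intro h
      exact absurd (Finset.mem_univ _) h
  set ψw := wJet (e := E.m - 1) (fun _ : Unit => a) (E.pt P) (E.tn P) with hψw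
  have hψw_eq : ψw = fun t : Unit × (Fin (E.m - 1) → Fin (E.r + 1)) =>
      (fun _ : Unit => dot a (E.tn P)) t.1 * ∏ k, E.pt P (t.2 k) := by
    funext t
    rw [hψw]
    unfold wJet
    rw [hdot0, zero_mul, add_zero]
  have hψw0 : ψw ≠ 0 := by
    rw [hψw_eq]
    exact wColLike_ne_zero (dot a (E.tn P)) (E.pt P) hdot1 (hpt.1 P)
  have hψu0 : ψu ≠ 0 := by
    rw [hψu_eq]
    exact betaCol_ne_zero _ _ hwne
  have hhtw : ht ψw = ((E.m - 1 : ℕ) : ℝ) * ht (E.pt P) := by
    have h := a7 (E.r + 1) (E.m - 1) Unit (fun _ : Unit => dot a (E.tn P)) (E.pt P)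
      (fun h0 => hdot1 (congrFun h0 ())) (hpt.1 P)
    rw [ht_eq_zero_of_subsingleton (fun _ : Unit => dot a (E.tn P)), zero_add] at h
    rw [hψw_eq]
    exact h
  have hhtu : ht ψu = ht (wedge (E.pt P) (E.tn P)) +
      ∑ i ∈ Finset.univ.erase i₀, ht (wedge (E.pt (A i)) (E.pt P)) := by
    rw [hψu_eq, a6 (E.r + 1) E.m (fun i => E.pt (A i)) zz hwne,
      ← Finset.add_sum_erase _ _ (Finset.mem_univ i₀)]
    simp only [hzz, if_pos]
    rw [hi₀]
    congr 1
    refine Finset.sum_congr rfl fun i hi => ?_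
    rw [if_neg (Finset.mem_erase.mp hi).1]
  have hle : ∀ r : Unit, (fun _ : Unit => a) r ≠ 0 →
      ∑ l, prim (A l) ≤ E.Z ((fun _ : Unit => a) r) :=
    fun _ _ => by rw [← hA]
  have hrk_u := hrankJet E.m A Unit (fun _ => a) hm1 hle (Fin Lu) (fun t => E.pt (Qu t)) P
    (fun j => hpt.2.1 _)
  have hrk_l := hrankJet E.m A Unit (fun _ => a) hm1 hle (Fin Ll) (fun t => E.pt (Ql t)) P
    (fun j => hpt.2.1 _)
  have h_up := hup A (fun _ => a) ψu ψw hrk_u hψw0
  have h_low := hlow a A ψu ψw ha hrk_l hψu0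
  rw [ht_unit_prod] at h_up
  have hpair : pairPt E ((E.Z a).erase P) P = ∑ i ∈ Finset.univ.erase i₀, hD E (A i) P := by
    rw [hA, erase_sum_prim A P i₀ hi₀ hne]
    exact pairPt_sum_prim E _ A P
  have hsumA : ∑ i ∈ Finset.univ.erase i₀, ht (E.pt (A i)) =
      ∑ i, ht (E.pt (A i)) - ht (E.pt P) := by
    rw [← Finset.add_sum_erase _ (fun i => ht (E.pt (A i))) (Finset.mem_univ i₀), hi₀]
    ring
  have hcard : ((Finset.univ.erase i₀).card : ℝ) = (E.m : ℝ) - 1 := by
    rw [Finset.card_erase_of_mem (Finset.mem_univ _), Finset.card_univ, Fintype.card_fin,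
      Nat.cast_sub hm1, Nat.cast_one]
  have hsum : ∑ i ∈ Finset.univ.erase i₀, hD E (A i) P =
      (∑ i, ht (E.pt (A i)) - ht (E.pt P)) + ((E.m : ℝ) - 1) * ht (E.pt P) -
        ∑ i ∈ Finset.univ.erase i₀, ht (wedge (E.pt (A i)) (E.pt P)) := by
    unfold hD
    rw [Finset.sum_sub_distrib, Finset.sum_add_distrib, Finset.sum_const, hsumA, nsmul_eq_mul,
      hcard]
  have hcast : ((E.m - 1 : ℕ) : ℝ) = (E.m : ℝ) - 1 := by
    rw [Nat.cast_sub hm1, Nat.cast_one]
  have hkap : kap E P = ht (wedge (E.pt P) (E.tn P)) - 2 * ht (E.pt P) := rfl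
  rw [hpair, hsum, hkap, abs_le]
  rw [hhtw, hcast, hhtu] at h_up h_low
  constructor
  · have := le_max_right Cu Cl
    linarith
  · have := le_max_left Cu Cl
    linarith

end Fermat.Agent.S17.H980
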