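import Fermat.Agent.S17.H710.Wall.Defs
import Fermat.Agent.S17.H380.AbsSegre

/-!
# S17 / tower H, WALL assembly: CORE-LOW and CORE-UP (helper980)

The two assembly cores of `origin/helper710:Fermat/Agent/S17/H710/Wall/Skeleton.lean`, with the
frozen leaves of `Wall/Defs.lean` as explicit hypotheses (EXACT conclusions of the skeleton).

* `core_low` : rows `a X^α`, extra rows `β_s`:  `h(a) + h(ψu) ≤ Σ h(Aᵢ) + h(ψw) + C`
  from A1 (two row blocks swapped), A2, A3 (`d = 1`, `rel = ∅`), A4, A5, A9, G-INF, G-MINOR-a;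
* `core_up`  : rows `β_s`, extra rows `w_ρ X^α`: `Σ h(Aᵢ) + h(ψw) ≤ h(W) + h(ψu) + C`
  from A1, A2, A3 (`d = k`, `rel` = homogeneous relations of `E.x`), A4, A5, A8, G-PT, G-CONE,
  G-INF, G-MINOR-β.
-/

set_option autoImplicit false

noncomputable section

namespace Fermat.Agent.S17.H980

open AlgebraicCurve MvPolynomial
open Fermat.Agent.Lib.RR Fermat.Agent.S17.HWall Fermat.Agent.S17.H710
open Fermat.Agent.S17.HContract Fermat.Agent.S17.Wall

section Tools

variable {K : Type*} [Field K]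

omit [Field K] in
/-- swapping the two row blocks does not change the row space -/
theorem range_stack_swap {σ τ c : Type*} (U : σ → c → K) (ψu : σ → K) (W : τ → c → K)
    (ψw : τ → K) : Set.range (stack W ψw U ψu) = Set.range (stack U ψu W ψw) := by
  unfold stack
  rw [Set.Sum.elim_range, Set.Sum.elim_range, Set.union_comm]

/-- `kapN E k ≥ 1` for `k ≥ 1` -/
theorem one_le_kapN {F : Type*} [Field F] [Algebra K F] [FF1 K F] (E : EmbData K F) {k : ℕ}
    (hk : 1 ≤ k) : 1 ≤ kapN E k := by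
  unfold kapN
  have hm := E.hm
  have h1 : k * (2 * genusR K F + 1) ≤ k * E.m := Nat.mul_le_mul_left k hm
  have h2 : k * (2 * genusR K F + 1) = 2 * (k * genusR K F) + k := by ring
  have h3 : genusR K F ≤ k * genusR K F := Nat.le_mul_of_pos_left _ hk
  omega

end Tools

variable {K F : Type*} [Field K] [CharZero K] [Field F] [Algebra K F] [FF1 K F]

/-- **CORE-LOW.** -/
theorem core_low (E : EmbData K F)
    (a1 : CramerHeightStatement K) (a2 : MinorStatement K) (a3 : MultislotStatement K)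
    (a4 : HtBetaMatStatement K) (a5 : HtWMatStatement K) (a9 : MinorPolyAStatement K)
    (hinf : InfStatement K F) (hminorA : MinorAStatement E) :
    ∃ (C : ℝ) (L : ℕ) (Q : Fin L → Place K F), Function.Injective Q ∧ E.m * E.m < L ∧
      ∀ (a : Fin (E.r + 1) → K) (A : Fin E.m → Place K F)
        (ψu : (Fin E.m → Fin (E.r + 1) × Fin (E.r + 1)) → K)
        (ψw : Unit × (Fin (E.m - 1) → Fin (E.r + 1)) → K),
        a ≠ 0 →
        Module.finrank K (Submodule.span K (Set.range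
          (stack (betaMat (fun i => E.pt (A i)) fun t => E.pt (Q t)) ψu
            (wMat (fun _ : Unit => a) fun t => E.pt (Q t)) ψw))) ≤ kapN E E.m →
        ψu ≠ 0 →
        ht a + ht ψu ≤ ∑ i, ht (E.pt (A i)) + ht ψw + C := by
  classical
  have hm1 : 1 ≤ E.m := by
    have := E.hm
    omega
  obtain ⟨Q, hQ⟩ := hinf (E.m * E.m + 1)
  set y : Fin (E.m * E.m + 1) → Fin (E.r + 1) → K := fun t => E.pt (Q t) with hy
  set κ := kapN E E.m with hκ
  have hκ1 : 1 ≤ κ := one_le_kapN E hm1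
  obtain ⟨C1, hC1⟩ := a1 κ (Unit × (Fin (E.m - 1) → Fin (E.r + 1)))
    (Fin E.m → Fin (E.r + 1) × Fin (E.r + 1)) (Fin (E.m * E.m + 1))
  obtain ⟨p, hpH, hpev⟩ := a9 (E.r + 1) (E.m - 1) (Fin (E.m * E.m + 1)) y κ
  have hnz : ∀ a : Fin (E.r + 1) → K, a ≠ 0 →
      minors κ (wMat (e := E.m - 1) (fun _ : Unit => a) y) ≠ 0 := fun a ha =>
    a2 _ _ κ _ (hminorA _ Q hQ (Nat.lt_succ_self _) a ha)
  obtain ⟨C3, hC3⟩ := a3 (E.r + 1) 1 _ ∅ (fun G hG => absurd hG (Set.notMem_empty G)) p κ hpH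
    (by
      intro y' hy' _
      by_contra hcon
      apply hnz (y' 0) (hy' 0)
      funext j
      rw [← hpev (y' 0) j]
      have hj : eval (fun q : Fin 1 × Fin (E.r + 1) => y' q.1 q.2) (p j) = 0 := by
        by_contra h
        exact hcon ⟨j, h⟩
      have hfun : (fun q : Fin 1 × Fin (E.r + 1) => y' q.1 q.2) = fun q => y' 0 q.2 := by
        funext q
        rw [Subsingleton.elim q.1 0]
      rw [hfun] at hj
      exact hj)
  obtain ⟨C4, hC4⟩ := a4 (E.r + 1) E.m (Fin (E.m * E.m + 1)) y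
  obtain ⟨C5, hC5⟩ := a5 (E.r + 1) (E.m - 1) Unit (Fin (E.m * E.m + 1)) y
  refine ⟨C1 + C3 + C4 + ((κ - 1 : ℕ) : ℝ) * C5, _, Q, hQ, Nat.lt_succ_self _, ?_⟩
  intro a A ψu ψw ha hrank hψu
  have h1 := hC1 (wMat (e := E.m - 1) (fun _ : Unit => a) y) ψw
    (betaMat (fun i => E.pt (A i)) y) ψu
    (by rw [range_stack_swap]; exact hrank) (hnz a ha) hψu
  have h3 := hC3 (fun _ => a) (fun _ => ha) (fun _ G hG => absurd hG (Set.notMem_empty G))
  have h4 := hC4 (fun i => E.pt (A i))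
  have h5 := hC5 (fun _ => a)
  have hfa : ht (fun q : Unit × Fin (E.r + 1) => a q.2) = ht a :=
    H380.absLogHeight_comp_equiv (Equiv.punitProd (Fin (E.r + 1))) a
  rw [hfa] at h5
  have hmin : (fun j => eval (fun q : Fin 1 × Fin (E.r + 1) => a q.2) (p j)) =
      minors κ (wMat (e := E.m - 1) (fun _ : Unit => a) y) := by
    funext j
    exact hpev a j
  have h3' : (κ : ℝ) * ht a ≤ ht (minors κ (wMat (e := E.m - 1) (fun _ : Unit => a) y)) + C3 := by
    have := h3
    simp only [Finset.univ_unique, Finset.sum_singleton] at this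
    rw [← hmin]
    exact this
  have hκc : ((κ - 1 : ℕ) : ℝ) = (κ : ℝ) - 1 := by
    rw [Nat.cast_sub hκ1, Nat.cast_one]
  have hκ0 : (0 : ℝ) ≤ ((κ - 1 : ℕ) : ℝ) := Nat.cast_nonneg _
  have h5' : ((κ - 1 : ℕ) : ℝ) *
      ht (fun q : (Unit × (Fin (E.m - 1) → Fin (E.r + 1))) × Fin (E.m * E.m + 1) =>
        wMat (fun _ : Unit => a) y q.1 q.2) ≤ ((κ - 1 : ℕ) : ℝ) * (ht a + C5) :=
    mul_le_mul_of_nonneg_left h5 hκ0
  have hexp : ((κ - 1 : ℕ) : ℝ) * (ht a + C5) = (κ : ℝ) * ht a - ht a + ((κ - 1 : ℕ) : ℝ) * C5 := by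
    rw [hκc]; ring
  linarith

omit [CharZero K] in
/-- scaling the points scales `betaMat` by a non-zero constant -/
theorem betaMat_smul {n d : ℕ} {c : Type*} (t : Fin d → K) (u : Fin d → Fin n → K)
    (y : c → Fin n → K) :
    betaMat (fun i => t i • u i) y = fun s j => (∏ i, t i) * betaMat u y s j := by
  funext s j
  unfold betaMat
  rw [← Finset.prod_mul_distrib]
  refine Finset.prod_congr rfl fun i _ => ?_
  simp [wedge]
  ring

/-- **CORE-UP.** -/
theorem core_up (E : EmbData K F)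
    (a1 : CramerHeightStatement K) (a2 : MinorStatement K) (a3 : MultislotStatement K)
    (a4 : HtBetaMatStatement K) (a5 : HtWMatStatement K) (a8 : MinorPolyBetaStatement K)
    (hpt : PtStatement E) (hcone : ConeStatement E)
    (hinf : InfStatement K F) (hminorB : MinorBetaStatement E)
    (k : ℕ) (hk : 1 ≤ k) (ρ : Type) [Fintype ρ] :
    ∃ (C : ℝ) (L : ℕ) (Q : Fin L → Place K F), Function.Injective Q ∧ E.m * E.m < L ∧
      ∀ (A : Fin k → Place K F) (W : ρ → Fin (E.r + 1) → K)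
        (ψu : (Fin k → Fin (E.r + 1) × Fin (E.r + 1)) → K)
        (ψw : ρ × (Fin (k - 1) → Fin (E.r + 1)) → K),
        Module.finrank K (Submodule.span K (Set.range
          (stack (betaMat (fun i => E.pt (A i)) fun t => E.pt (Q t)) ψu
            (wMat W fun t => E.pt (Q t)) ψw))) ≤ kapN E k →
        ψw ≠ 0 →
        ∑ i, ht (E.pt (A i)) + ht ψw ≤ ht (fun q : ρ × Fin (E.r + 1) => W q.1 q.2) + ht ψu + C := by
  classical
  set L := E.m * E.m + k * E.m + 1 with hL
  obtain ⟨Q, hQ⟩ := hinf L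
  have hL1 : E.m * E.m < L := by omega
  have hL2 : k * E.m < L := by omega
  set y : Fin L → Fin (E.r + 1) → K := fun t => E.pt (Q t) with hy
  set κ := kapN E k with hκ
  have hκ1 : 1 ≤ κ := one_le_kapN E hk
  obtain ⟨C1, hC1⟩ := a1 κ (Fin k → Fin (E.r + 1) × Fin (E.r + 1))
    (ρ × (Fin (k - 1) → Fin (E.r + 1))) (Fin L)
  obtain ⟨p, hpH, hpev⟩ := a8 (E.r + 1) k (Fin L) y κ
  have hnz : ∀ A : Fin k → Place K F, minors κ (betaMat (fun i => E.pt (A i)) y) ≠ 0 :=
    fun A => a2 _ _ κ _ (hminorB k L Q hk hQ hL2 A)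
  let rel : Set (MvPolynomial (Fin (E.r + 1)) K) :=
    {G | (∃ e : ℕ, G.IsHomogeneous e) ∧ aeval E.x G = 0}
  have hcone' : ∀ u : Fin (E.r + 1) → K, (∀ G ∈ rel, eval u G = 0) → OnCone E.x u := by
    intro u hu d G hG hG0
    exact hu G ⟨⟨d, hG⟩, hG0⟩
  have hrel_pt : ∀ P : Place K F, ∀ G ∈ rel, eval (E.pt P) G = 0 := by
    rintro P G ⟨⟨e, hG⟩, hG0⟩
    exact hpt.2.1 P e G hG hG0
  obtain ⟨C3, hC3⟩ := a3 (E.r + 1) k _ rel (fun G hG => hG.1) p κ hpH
    (by
      intro u hu0 hurel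
      -- every `u l` is a multiple of a point of the curve
      have hP : ∀ l, ∃ (P : Place K F) (c : K), c ≠ 0 ∧ u l = c • E.pt P := fun l =>
        hcone (u l) (hu0 l) (hcone' (u l) (hurel l))
      choose A t ht0 hut using hP
      by_contra hcon
      apply hnz A
      have hzero : minors κ (betaMat u y) = 0 := by
        funext j
        rw [← hpev u j]
        by_contra h
        exact hcon ⟨j, h⟩
      have hu : u = fun i => t i • E.pt (A i) := funext hut
      rw [hu, betaMat_smul] at hzero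
      have hprod : (∏ i, t i) ≠ 0 := Finset.prod_ne_zero_iff.mpr fun i _ => ht0 i
      funext j
      have hj := congrFun hzero j
      unfold minors at hj ⊢
      have hmat : (Matrix.of fun i l => (∏ i, t i) *
          betaMat (fun i => E.pt (A i)) y (j.1 i) (j.2 l)) =
          (∏ i, t i) • Matrix.of fun i l => betaMat (fun i => E.pt (A i)) y (j.1 i) (j.2 l) := by
        ext i l
        simp
      simp only [Pi.zero_apply] at hj ⊢
      rw [hmat, Matrix.det_smul] at hj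
      rcases mul_eq_zero.mp hj with h | h
      · exact absurd h (pow_ne_zero _ hprod)
      · exact h)
  obtain ⟨C4, hC4⟩ := a4 (E.r + 1) k (Fin L) y
  obtain ⟨C5, hC5⟩ := a5 (E.r + 1) (k - 1) ρ (Fin L) y
  refine ⟨C1 + C3 + ((κ - 1 : ℕ) : ℝ) * C4 + C5, L, Q, hQ, hL1, ?_⟩
  intro A W ψu ψw hrank hψw
  have h1 := hC1 (betaMat (fun i => E.pt (A i)) y) ψu (wMat (e := k - 1) W y) ψw hrank
    (hnz A) hψw
  have h3 := hC3 (fun i => E.pt (A i)) (fun l => hpt.1 (A l)) (fun l => hrel_pt (A l))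
  have h4 := hC4 (fun i => E.pt (A i))
  have h5 := hC5 W
  have hmin : (fun j => eval (fun q : Fin k × Fin (E.r + 1) => E.pt (A q.1) q.2) (p j)) =
      minors κ (betaMat (fun i => E.pt (A i)) y) := by
    funext j
    exact hpev (fun i => E.pt (A i)) j
  rw [hmin] at h3
  have hκc : ((κ - 1 : ℕ) : ℝ) = (κ : ℝ) - 1 := by
    rw [Nat.cast_sub hκ1, Nat.cast_one]
  have hκ0 : (0 : ℝ) ≤ ((κ - 1 : ℕ) : ℝ) := Nat.cast_nonneg _
  have h4' := mul_le_mul_of_nonneg_left h4 hκ0
  have hexp : ((κ - 1 : ℕ) : ℝ) * (∑ i, ht (E.pt (A i)) + C4) =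
      (κ : ℝ) * ∑ i, ht (E.pt (A i)) - ∑ i, ht (E.pt (A i)) + ((κ - 1 : ℕ) : ℝ) * C4 := by
    rw [hκc]; ring
  linarith

end Fermat.Agent.S17.H980
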